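import Fermat.Agent.S25.R.Basic

/-!
# S25 / layer R : jointly surjective families of open immersions in `Over S`
-/

set_option autoImplicit false

universe u

open CategoryTheory Limits AlgebraicGeometry Opposite

namespace Fermat.Agent.S25.R

variable {S : Scheme.{u}}

/-! ### jointly surjective families of open immersions -/

/-- A family of open immersions into `T` (in `Over S`) which is jointly surjective. -/
structure IsOpenCover {T : Over S} {ι : Type u} {Y : ι → Over S} (f : ∀ i, Y i ⟶ T) : Prop where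
  isOpenImmersion : ∀ i, IsOpenImmersion (f i).left
  cover : ∀ p : T.left, ∃ i, p ∈ Set.range (f i).left.base

theorem isOpenCover_overOpenι (T : Over S) {ι : Type u} (U : ι → T.left.Opens)
    (hU : ⨆ i, U i = ⊤) : IsOpenCover (fun i => overOpenι T (U i)) := by
  refine ⟨fun i => inferInstance, fun p => ?_⟩
  have hp : p ∈ ⨆ i, U i := by rw [hU]; trivial
  obtain ⟨i, hi⟩ := TopologicalSpace.Opens.mem_iSup.1 hp
  exact ⟨i, by rw [range_overOpenι]; exact hi⟩

/-- The affine open cover of `T`, in `Over S`. -/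
theorem exists_affine_isOpenCover (T : Over S) :
    ∃ (ι : Type u) (R : ι → CommRingCat.{u}) (f : ∀ i, Spec (R i) ⟶ T.left),
      IsOpenCover (fun i => overPre T (f i)) := by
  refine ⟨T.left.affineOpenCover.I₀, T.left.affineOpenCover.X, T.left.affineOpenCover.f,
    fun i => ?_, fun p => ?_⟩
  · change IsOpenImmersion (T.left.affineOpenCover.f i)
    infer_instance
  · exact ⟨T.left.affineOpenCover.idx p, T.left.affineOpenCover.covers p⟩

/-- the open cover of the underlying scheme -/
noncomputable def IsOpenCover.cov {T : Over S} {ι : Type u} {Y : ι → Over S} {f : ∀ i, Y i ⟶ T}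
    (hf : IsOpenCover f) : T.left.OpenCover :=
  Scheme.Cover.mkOfCovers ι (fun i => (Y i).left) (fun i => (f i).left)
    (fun x => by
      obtain ⟨i, y, hy⟩ := hf.cover x
      exact ⟨i, y, hy⟩)
    hf.isOpenImmersion

/-- Morphisms of `Over S` are determined locally on the source. -/
theorem IsOpenCover.hom_ext {T X : Over S} {ι : Type u} {Y : ι → Over S} {f : ∀ i, Y i ⟶ T}
    (hf : IsOpenCover f) (g g' : T ⟶ X) (h : ∀ i, f i ≫ g = f i ≫ g') : g = g' := by
  apply Over.OverMorphism.ext
  exact hf.cov.hom_ext _ _ (fun i => congrArg CommaMorphism.left (h i))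

/-- Morphisms of `Over S` glue. -/
theorem IsOpenCover.exists_glueHom {T X : Over S} {ι : Type u} {Y : ι → Over S} {f : ∀ i, Y i ⟶ T}
    (hf : IsOpenCover f) (g : ∀ i, Y i ⟶ X)
    (compat : ∀ (i j : ι) (Z : Over S) (a : Z ⟶ Y i) (b : Z ⟶ Y j),
      a ≫ f i = b ≫ f j → a ≫ g i = b ≫ g j) :
    ∃ g₀ : T ⟶ X, ∀ i, f i ≫ g₀ = g i := by
  have hc : ∀ i j : ι, pullback.fst (hf.cov.f i) (hf.cov.f j) ≫ (g i).left =
      pullback.snd (hf.cov.f i) (hf.cov.f j) ≫ (g j).left := by
    intro i j
    have hw : pullback.fst (f i).left (f j).left ≫ (Y i).hom =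
        pullback.snd (f i).left (f j).left ≫ (Y j).hom := by
      rw [← Over.w (f i), ← Over.w (f j), pullback.condition_assoc]
    have := compat i j (Over.mk (pullback.fst (f i).left (f j).left ≫ (Y i).hom))
      (Over.homMk (pullback.fst (f i).left (f j).left) rfl)
      (Over.homMk (pullback.snd (f i).left (f j).left) hw.symm)
      (by ext; exact pullback.condition)
    exact congrArg CommaMorphism.left this
  have hι : ∀ i, (f i).left ≫ hf.cov.glueMorphisms (fun i => (g i).left) hc = (g i).left :=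
    fun i => hf.cov.ι_glueMorphisms (fun i => (g i).left) hc i
  refine ⟨Over.homMk (hf.cov.glueMorphisms (fun i => (g i).left) hc) ?_, fun i => ?_⟩
  · refine hf.cov.hom_ext _ _ fun (i : ι) => ?_
    change (f i).left ≫ _ ≫ X.hom = (f i).left ≫ T.hom
    rw [← Category.assoc, hι, Over.w, Over.w]
  · ext
    exact hι i

/-- Pulling back an open cover along a morphism: every `T' ⟶ T` is, locally on `T'`, a morphism
into a member of the cover. -/
theorem IsOpenCover.exists_pullback {T T' : Over S} {ι : Type u} {Y : ι → Over S}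
    {f : ∀ i, Y i ⟶ T} (hf : IsOpenCover f) (g : T' ⟶ T) :
    ∃ (U : ι → T'.left.Opens) (g' : ∀ i, overOpen T' (U i) ⟶ Y i), ⨆ i, U i = ⊤ ∧
      ∀ i, g' i ≫ f i = overOpenι T' (U i) ≫ g := by
  have := hf.isOpenImmersion
  have hr : ∀ i, Set.range (overOpenι T' (g.left ⁻¹ᵁ (f i).left.opensRange) ≫ g).left.base ⊆
      Set.range (f i).left.base := by
    rintro i _ ⟨x, rfl⟩
    exact x.2
  choose g' hg' using fun i => exists_lift (f i)
    (overOpenι T' (g.left ⁻¹ᵁ (f i).left.opensRange) ≫ g) (hr i)
  refine ⟨fun i => g.left ⁻¹ᵁ (f i).left.opensRange, g', ?_, hg'⟩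
  rw [eq_top_iff]
  rintro p -
  obtain ⟨i, hi⟩ := hf.cover (g.left.base p)
  exact TopologicalSpace.Opens.mem_iSup.2 ⟨i, hi⟩

end Fermat.Agent.S25.R
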