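import Fermat.Agent.S25.R.Cover

/-!
# S25 / layer R : separated presheaves (the `sep` half of the sheaf condition)
-/

set_option autoImplicit false

universe u

open CategoryTheory Limits AlgebraicGeometry Opposite

namespace Fermat.Agent.S25.R

variable {S : Scheme.{u}} {F : (Over S)ᵒᵖ ⥤ Type (u + 1)}

/-- The `sep` half of the sheaf condition. -/
def IsSep (F : (Over S)ᵒᵖ ⥤ Type (u + 1)) : Prop :=
  ∀ (T : Over S) {ι : Type u} (U : ι → T.left.Opens) (_ : ⨆ i, U i = ⊤)
      (η η' : F.obj (op T)),
      (∀ i, F.map (overOpenι T (U i)).op η = F.map (overOpenι T (U i)).op η') → η = η'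

theorem isSep_of_isZariskiSheaf (hF : IsZariskiSheaf F) : IsSep F := hF.sep

theorem isSep_of_isZariskiSheaf₂ (hF : IsZariskiSheaf₂ F) : IsSep F := hF.sep

/-- separation along a jointly surjective family of open immersions -/
theorem IsOpenCover.sep_of_isSep (hF : IsSep F) {T : Over S} {ι : Type u} {Y : ι → Over S}
    {f : ∀ i, Y i ⟶ T} (hf : IsOpenCover f) (η η' : F.obj (op T))
    (h : ∀ i, F.map (f i).op η = F.map (f i).op η') : η = η' := by
  have := hf.isOpenImmersion
  refine hF T (fun i => (f i).left.opensRange) ?_ η η' fun i => ?_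
  · refine top_le_iff.1 fun p _ => ?_
    obtain ⟨i, hi⟩ := hf.cover p
    exact TopologicalSpace.Opens.mem_iSup.2 ⟨i, hi⟩
  · obtain ⟨e, he⟩ := exists_iso_overOpen (f i)
    have h1 : overOpenι T (f i).left.opensRange = e.inv ≫ f i :=
      (Iso.inv_comp_eq e).2 he.symm |>.symm
    rw [h1, map_comp_apply, map_comp_apply, h i]

end Fermat.Agent.S25.R
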