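import Fermat.Agent.S25.R.OpensGlue

/-!
# S25 / layer R / R2-A4 : representability from Mathlib's `Scheme.LocalRepresentability`

`G : Schemeᵒᵖ ⥤ Type u` a Zariski sheaf with a `FullAtlas`.  Pure Mathlib
(Mathlib/AlgebraicGeometry/Sites/Representability.lean, Mathlib/CategoryTheory/MorphismProperty/Representable.lean).
* `f i := yonedaEquiv.symm (𝔄.ξ i) : yoneda.obj (𝔄.X i) ⟶ G`, `(f i).app (op T) a = G.map a.op (𝔄.ξ i)` (`yonedaEquiv_symm_app_apply`).
* `hf i : IsOpenImmersion.presheaf (f i)` by `MorphismProperty.relative.of_exists`: for `g : yoneda.obj T ⟶ G` put `η := yonedaEquiv g`,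
  `U` from `𝔄.isOpen i T η`, `a : U.toScheme ⟶ X i` from (⇐) applied to `U.ι`; square `IsPullback (yoneda.map a) (yoneda.map U.ι) (f i) g` by
  `IsPullback.of_forall_isPullback_app` + `Types.isPullback_iff`: uniqueness since `U.ι` is mono; existence: `(b, h)` with `b^*ξ = h^*η` ⇒ `range h ⊆ U` (⇒),
  `c` with `c ≫ U.ι = h` (`exists_fac_of_range_subset`), `c ≫ a = b` by `𝔄.inj`.
* `Presheaf.IsLocallySurjective Scheme.zariskiTopology (Sigma.desc f)`: `imageSieve_mem`: for `η : G.obj (op T)` choose `(i_x, U_x, a_x)` by `𝔄.cover`;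
  the open cover `T.openCoverOfIsOpenCover U` is in the topology (`Scheme.Cover.mem_grothendieckTopology`), `GrothendieckTopology.superset_covering`;
  `U_x.ι` lies in the image sieve: preimage `(Sigma.ι (fun i => yoneda.obj (X i)) i_x).app _ a_x`.
* `J := (LocalRepresentability.glueData hf).glued`, `Φ := LocalRepresentability.yonedaGluedToSheaf hf` is an iso (instance), `ζ := Φ.hom.app (op J) (𝟙 J)`;
  `Φ.hom.app (op T) g = G.map g.op ζ` (`yonedaGluedToSheaf_app_comp`), bijective; `j i := toGlued hf i` (open immersion instance),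
  `yonedaGluedToSheaf_app_toGlued`; covering: `(glueData hf).ι_jointly_surjective`.
-/

set_option autoImplicit false

universe u

open CategoryTheory Limits AlgebraicGeometry Opposite

namespace Fermat.Agent.S25

variable {G : Scheme.{u}ᵒᵖ ⥤ Type u} (𝔄 : FullAtlas G)

noncomputable def FullAtlas.chartHom (i : 𝔄.ι) : yoneda.obj (𝔄.X i) ⟶ G := yonedaEquiv.symm (𝔄.ξ i)

lemma FullAtlas.chartHom_app (i : 𝔄.ι) (T : Scheme.{u}) (a : T ⟶ 𝔄.X i) :
    (𝔄.chartHom i).app (op T) a = G.map a.op (𝔄.ξ i) := by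
  exact yonedaEquiv_symm_app_apply _ _ _

lemma AbsRepr.app_eq {T : Scheme.{u}} (g : yoneda.obj T ⟶ G) (T' : Scheme.{u}) (h : T' ⟶ T) :
    g.app (op T') h = G.map h.op (yonedaEquiv g) := by
  rw [yonedaEquiv_naturality, yonedaEquiv_apply]
  simp

lemma AbsRepr.map_comp_apply {T T' T'' : Scheme.{u}} (f : T'' ⟶ T') (g : T' ⟶ T) (x : G.obj (op T)) :
    G.map (f ≫ g).op x = G.map f.op (G.map g.op x) := by
  rw [op_comp, Functor.map_comp]
  rfl

lemma FullAtlas.presheaf_chartHom (i : 𝔄.ι) : IsOpenImmersion.presheaf (𝔄.chartHom i) := by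
  apply MorphismProperty.relative.of_exists
  intro T g
  obtain ⟨U, hU⟩ := 𝔄.isOpen i T (yonedaEquiv g)
  obtain ⟨a, ha⟩ := (hU U.toScheme U.ι).2 (by
    rintro _ ⟨x, rfl⟩
    exact x.2)
  refine ⟨U.toScheme, yoneda.map a, U.ι, ?_, inferInstance⟩
  apply IsPullback.of_forall_isPullback_app
  rintro ⟨T'⟩
  rw [Types.isPullback_iff]
  refine ⟨?_, ?_, ?_⟩
  · ext c
    change (𝔄.chartHom i).app (op T') ((c : T' ⟶ U.toScheme) ≫ a) = g.app (op T') ((c : T' ⟶ U.toScheme) ≫ U.ι)
    rw [𝔄.chartHom_app, AbsRepr.app_eq, AbsRepr.map_comp_apply, AbsRepr.map_comp_apply, ha]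
  · rintro c c' ⟨-, h2⟩
    change (c : T' ⟶ U.toScheme) ≫ U.ι = (c' : T' ⟶ U.toScheme) ≫ U.ι at h2
    exact (cancel_mono U.ι).1 h2
  · intro b h hbh
    change (𝔄.chartHom i).app (op T') (b : T' ⟶ 𝔄.X i) = g.app (op T') (h : T' ⟶ T) at hbh
    rw [𝔄.chartHom_app, AbsRepr.app_eq] at hbh
    obtain ⟨c, hc⟩ := exists_fac_of_range_subset (h : T' ⟶ T) U ((hU T' h).1 ⟨b, hbh⟩)
    refine ⟨c, ?_, hc⟩
    change c ≫ a = b
    apply 𝔄.inj
    rw [AbsRepr.map_comp_apply, ha, ← AbsRepr.map_comp_apply, hc, hbh]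

lemma FullAtlas.isLocallySurjective :
    Presheaf.IsLocallySurjective Scheme.zariskiTopology (Sigma.desc 𝔄.chartHom) where
  imageSieve_mem := by
    intro T η
    choose i U a hx ha using 𝔄.cover T η
    have hcov : TopologicalSpace.IsOpenCover U := by
      rw [TopologicalSpace.IsOpenCover, eq_top_iff]
      intro x _
      exact TopologicalSpace.Opens.mem_iSup.2 ⟨x, hx x⟩
    refine GrothendieckTopology.superset_covering _ ?_
      (T.openCoverOfIsOpenCover U hcov).mem_grothendieckTopology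
    rw [Sieve.ofArrows, Sieve.generate_le_iff]
    rintro V _ ⟨x⟩
    have key : ∀ x : T, ∃ t, (Sigma.desc 𝔄.chartHom).app (op (U x).toScheme) t =
        G.map (U x).ι.op η := by
      intro x
      refine ⟨(Sigma.ι (fun i => yoneda.obj (𝔄.X i)) (i x)).app _ (a x), ?_⟩
      have h1 : (Sigma.desc 𝔄.chartHom).app (op (U x).toScheme)
          ((Sigma.ι (fun i => yoneda.obj (𝔄.X i)) (i x)).app (op (U x).toScheme) (a x)) =
          (Sigma.ι (fun i => yoneda.obj (𝔄.X i)) (i x) ≫ Sigma.desc 𝔄.chartHom).app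
            (op (U x).toScheme) (a x) := rfl
      rw [Sigma.ι_desc, 𝔄.chartHom_app, ha] at h1
      exact h1
    exact key x

theorem FullAtlas.exists_isRepr_of_isSheaf {G : Scheme.{u}ᵒᵖ ⥤ Type u}
    (hG : Presieve.IsSheaf Scheme.zariskiTopology G) (𝔄 : FullAtlas G) :
    ∃ (J : Scheme.{u}) (ζ : G.obj (op J)), 𝔄.IsRepr J ζ := by
  let F : Sheaf Scheme.zariskiTopology.{u} (Type u) := ⟨G, (isSheaf_iff_isSheaf_of_type _ _).2 hG⟩
  have hf : ∀ i, IsOpenImmersion.presheaf (show yoneda.obj (𝔄.X i) ⟶ F.1 from 𝔄.chartHom i) :=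
    𝔄.presheaf_chartHom
  have : Presheaf.IsLocallySurjective Scheme.zariskiTopology
      (Sigma.desc (fun i => (show yoneda.obj (𝔄.X i) ⟶ F.1 from 𝔄.chartHom i))) :=
    𝔄.isLocallySurjective
  let J := (Scheme.LocalRepresentability.glueData hf).glued
  let Φ := Scheme.LocalRepresentability.yonedaGluedToSheaf hf
  let ζ : G.obj (op J) := Φ.hom.app (op J) (𝟙 J)
  have hΦ : ∀ (T : Scheme.{u}) (g : T ⟶ J), Φ.hom.app (op T) g = G.map g.op ζ := by
    intro T g
    have := Scheme.LocalRepresentability.yonedaGluedToSheaf_app_comp hf g (𝟙 J)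
    rw [Category.comp_id] at this
    exact this
  have hiso : IsIso Φ := inferInstance
  have hbij : ∀ T : Scheme.{u}, Function.Bijective (Φ.hom.app (op T)) := by
    intro T
    have h1 : IsIso ((sheafToPresheaf _ _).map Φ) := inferInstance
    have h2 : IsIso (((sheafToPresheaf _ _).map Φ).app (op T)) := inferInstance
    exact (isIso_iff_bijective _).1 h2
  refine ⟨J, ζ, ?_, fun i => Scheme.LocalRepresentability.toGlued hf i, fun i => inferInstance, ?_, ?_⟩
  · intro T η
    obtain ⟨g, hg⟩ := (hbij T).2 η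
    refine ⟨g, ?_, ?_⟩
    · simp only
      rw [← hΦ, hg]
    · intro g' hg'
      apply (hbij T).1
      rw [hΦ, hΦ, hg', ← hΦ, hg]
  · intro i
    rw [← hΦ]
    have h1 := Scheme.LocalRepresentability.yonedaGluedToSheaf_app_toGlued hf (i := i)
    refine h1.trans ?_
    exact Equiv.apply_symm_apply _ _
  · intro p
    obtain ⟨i, x, hx⟩ := (Scheme.LocalRepresentability.glueData hf).ι_jointly_surjective p
    exact ⟨i, x, hx⟩

end Fermat.Agent.S25
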