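import Fermat.Agent.S25.R.AbsDefs

/-!
# S25 / layer R / R2-A2 : a separated presheaf with an atlas has `u`-small values

`choose` `(i_x, U_x, a_x)` from `𝔄.cover T η x`.  The map
`η ↦ fun x => (⟨i_x, U_x, a_x⟩ : Σ (i : 𝔄.ι) (U : T.Opens), (U.toScheme ⟶ 𝔄.X i))` is injective by `hG.sep` (cover `U_x`, `x : T`),
and its target lies in `Type u`: `small_of_injective`.
-/

set_option autoImplicit false

universe v u

open CategoryTheory Limits AlgebraicGeometry Opposite

namespace Fermat.Agent.S25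

theorem FullAtlas.small {G : Scheme.{u}ᵒᵖ ⥤ Type v} (hG : IsZarSheafAbs G) (𝔄 : FullAtlas G)
    (T : Scheme.{u}ᵒᵖ) : Small.{u} (G.obj T) := by
  induction T using Opposite.rec with
  | op T =>
  choose i U a hx ha using 𝔄.cover T
  let F : G.obj (op T) → (∀ _ : T, Σ (i : 𝔄.ι) (U : T.Opens), (U.toScheme ⟶ 𝔄.X i)) :=
    fun η x => ⟨i η x, U η x, a η x⟩
  refine small_of_injective (f := F) ?_
  intro η η' h
  refine hG.sep T (fun x : T => U η x) ?_ η η' ?_
  · rw [eq_top_iff]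
    intro x _
    exact TopologicalSpace.Opens.mem_iSup.mpr ⟨x, hx η x⟩
  · intro x
    have key : ∀ (s s' : Σ (i : 𝔄.ι) (U : T.Opens), (U.toScheme ⟶ 𝔄.X i)), s = s' →
        G.map s.2.2.op (𝔄.ξ s.1) = G.map s.2.1.ι.op η →
        G.map s'.2.2.op (𝔄.ξ s'.1) = G.map s'.2.1.ι.op η' →
        G.map s.2.1.ι.op η = G.map s.2.1.ι.op η' := by
      rintro s _ rfl h1 h2
      rw [← h1, h2]
    exact key _ _ (congrFun h x) (ha η x) (ha η' x)

end Fermat.Agent.S25
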