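import Fermat.Agent.S25.R.OpensGlue

/-!
# S25 / layer R / R2-A3 : the explicit sheaf condition implies the sheaf condition for `Scheme.zariskiTopology`

Pure Mathlib.  Follow the proof of `AlgebraicGeometry.Scheme.subcanonical_zariskiTopology`
(Mathlib/AlgebraicGeometry/Sites/BigZariski.lean):
`rw [Precoverage.isSheaf_toGrothendieck_iff_of_isStableUnderBaseChange]; rintro Y S hS x hx;
obtain ⟨(𝓤 : OpenCover Y), rfl⟩ := exists_cover_of_mem_pretopology hS`.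
Then `U i := (𝓤.f i).opensRange` (`𝓤.iSup_opensRange`), `e i : 𝓤.X i ≅ (U i).toScheme := (𝓤.f i).isoOpensRange`,
`η i := G.map (e i).inv.op (x (𝓤.f i) ⟨i⟩)`; compatibility from `hx` (`Presieve.FamilyOfElements.Compatible`)
with `g₁ := T.homOfLE inf_le_left ≫ (e i).inv`, `g₂ := T.homOfLE inf_le_right ≫ (e j).inv`.
(The index type of `𝓤` is in `Type u` for `OpenCover.{u}`; if universe trouble, use `𝓤.ulift`.)
-/

set_option autoImplicit false

universe w v u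

open CategoryTheory Limits AlgebraicGeometry Opposite

namespace Fermat.Agent.S25

theorem IsZarSheafAbs.isSheafFor_openCover_aux {G : Scheme.{u}ᵒᵖ ⥤ Type v} (hG : IsZarSheafAbs G)
    {Y : Scheme.{u}} (𝓤 : Scheme.OpenCover.{w} Y) {ι : Type u} (s : ι → 𝓤.I₀)
    (hs : ∀ j, ∃ k, (𝓤.f j).opensRange ≤ (𝓤.f (s k)).opensRange) :
    Presieve.IsSheafFor G (Presieve.ofArrows 𝓤.X 𝓤.f) := by
  intro x hx
  have hU : ⨆ k, (𝓤.f (s k)).opensRange = ⊤ := by
    rw [eq_top_iff, ← 𝓤.iSup_opensRange]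
    refine iSup_le fun j => ?_
    obtain ⟨k, hk⟩ := hs j
    exact hk.trans (le_iSup (fun k => (𝓤.f (s k)).opensRange) k)
  have key : ∀ (η : G.obj (op Y)) (i : 𝓤.I₀),
      G.map (𝓤.f i).op η = G.map (𝓤.f i).isoOpensRange.hom.op
        (G.map (𝓤.f i).opensRange.ι.op η) := by
    intro η i
    rw [← types_comp_apply (G.map _) (G.map _), ← Functor.map_comp, ← op_comp,
      Scheme.Hom.isoOpensRange_hom_ι]
  have key2 : ∀ (i : 𝓤.I₀) (y : G.obj (op (𝓤.X i))),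
      G.map (𝓤.f i).isoOpensRange.hom.op (G.map (𝓤.f i).isoOpensRange.inv.op y) = y := by
    intro i y
    rw [← types_comp_apply (G.map _) (G.map _), ← Functor.map_comp, ← op_comp,
      Iso.hom_inv_id, op_id, CategoryTheory.Functor.map_id, types_id_apply]
  have key3 : ∀ (i : 𝓤.I₀) (y : G.obj (op (𝓤.f i).opensRange.toScheme)),
      G.map (𝓤.f i).isoOpensRange.inv.op (G.map (𝓤.f i).isoOpensRange.hom.op y) = y := by
    intro i y
    rw [← types_comp_apply (G.map _) (G.map _), ← Functor.map_comp, ← op_comp,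
      Iso.inv_hom_id, op_id, CategoryTheory.Functor.map_id, types_id_apply]
  have hcompat : ∀ i j : 𝓤.I₀, G.map (Y.homOfLE (inf_le_left :
        (𝓤.f i).opensRange ⊓ (𝓤.f j).opensRange ≤ (𝓤.f i).opensRange)).op
          (G.map (𝓤.f i).isoOpensRange.inv.op (x (𝓤.f i) ⟨i⟩)) =
      G.map (Y.homOfLE (inf_le_right :
        (𝓤.f i).opensRange ⊓ (𝓤.f j).opensRange ≤ (𝓤.f j).opensRange)).op
          (G.map (𝓤.f j).isoOpensRange.inv.op (x (𝓤.f j) ⟨j⟩)) := by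
    intro i j
    have := hx (Y.homOfLE (inf_le_left : (𝓤.f i).opensRange ⊓ (𝓤.f j).opensRange ≤ _) ≫
          (𝓤.f i).isoOpensRange.inv)
        (Y.homOfLE (inf_le_right : (𝓤.f i).opensRange ⊓ (𝓤.f j).opensRange ≤ _) ≫
          (𝓤.f j).isoOpensRange.inv) ⟨i⟩ ⟨j⟩ (by
            rw [Category.assoc, Category.assoc, Scheme.Hom.isoOpensRange_inv_comp,
              Scheme.Hom.isoOpensRange_inv_comp, Scheme.homOfLE_ι, Scheme.homOfLE_ι])
    rw [op_comp, op_comp, Functor.map_comp, Functor.map_comp] at this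
    exact this
  obtain ⟨η₀, hη₀⟩ := hG.glue Y (fun k => (𝓤.f (s k)).opensRange) hU
    (fun k => G.map (𝓤.f (s k)).isoOpensRange.inv.op (x (𝓤.f (s k)) ⟨s k⟩))
    (fun k l => hcompat (s k) (s l))
  have h0 : ∀ k, G.map (𝓤.f (s k)).op η₀ = x (𝓤.f (s k)) ⟨s k⟩ := fun k =>
    (key η₀ (s k)).trans ((congrArg _ (hη₀ k)).trans (key2 (s k) _))
  refine ⟨η₀, ?_, ?_⟩
  · rintro Z e ⟨j⟩
    obtain ⟨k, hk⟩ := hs j
    have hfac : IsOpenImmersion.lift (𝓤.f (s k)) (𝓤.f j) hk ≫ 𝓤.f (s k) = 𝓤.f j :=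
      IsOpenImmersion.lift_fac _ _ _
    have h2 := hx (IsOpenImmersion.lift (𝓤.f (s k)) (𝓤.f j) hk) (𝟙 _) ⟨s k⟩ ⟨j⟩
      (by rw [hfac, Category.id_comp])
    rw [op_id, CategoryTheory.Functor.map_id, types_id_apply] at h2
    rw [← h2, ← h0 k, ← types_comp_apply (G.map _) (G.map _), ← Functor.map_comp, ← op_comp, hfac]
  · intro η' h
    apply hG.sep Y (fun k => (𝓤.f (s k)).opensRange) hU
    intro k
    have h1 : G.map (𝓤.f (s k)).op η' = x (𝓤.f (s k)) ⟨s k⟩ := h (𝓤.f (s k)) ⟨s k⟩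
    refine Eq.trans ?_ (hη₀ k).symm
    show _ = G.map (𝓤.f (s k)).isoOpensRange.inv.op (x (𝓤.f (s k)) ⟨s k⟩)
    rw [← h1, key, key3]

theorem IsZarSheafAbs.isSheafFor_openCover {G : Scheme.{u}ᵒᵖ ⥤ Type v} (hG : IsZarSheafAbs G)
    {Y : Scheme.{u}} (𝓤 : Scheme.OpenCover.{w} Y) :
    Presieve.IsSheafFor G (Presieve.ofArrows 𝓤.X 𝓤.f) :=
  hG.isSheafFor_openCover_aux 𝓤
    (ι := Set.range fun i : 𝓤.I₀ => (𝓤.f i).opensRange) (fun V => V.2.choose)
    (fun j => ⟨⟨_, j, rfl⟩, (Exists.choose_spec (p := fun i : 𝓤.I₀ =>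
      (𝓤.f i).opensRange = (𝓤.f j).opensRange) ⟨j, rfl⟩).ge⟩)

theorem IsZarSheafAbs.isSheaf {G : Scheme.{u}ᵒᵖ ⥤ Type v} (hG : IsZarSheafAbs G) :
    Presieve.IsSheaf Scheme.zariskiTopology G := by
  rw [Precoverage.isSheaf_toGrothendieck_iff_of_isStableUnderBaseChange]
  rintro Y S hS
  obtain ⟨(𝓤 : Scheme.OpenCover Y), rfl⟩ := Scheme.exists_cover_of_mem_pretopology hS
  exact hG.isSheafFor_openCover 𝓤

end Fermat.Agent.S25
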