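import Fermat.Agent.S25.R.AbsExtend
import Fermat.Agent.S25.R.AbsSmall
import Fermat.Agent.S25.R.AbsRepr
import Fermat.Agent.S25.R.ZarSheaf

/-!
# S25 / layer R / R2-A5 : the absolute representability criterion, values in any universe
-/

set_option autoImplicit false

universe v u

open CategoryTheory Limits AlgebraicGeometry Opposite

namespace Fermat.Agent.S25

variable {G : Scheme.{u}ᵒᵖ ⥤ Type v}

section shrink

variable [FunctorToTypes.Small.{u} G]

theorem shrink_map_apply {T T' : Scheme.{u}ᵒᵖ} (f : T ⟶ T') (x : G.obj T) :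
    (FunctorToTypes.shrink.{u} G).map f (equivShrink.{u} _ x) = equivShrink.{u} _ (G.map f x) := by
  simp [FunctorToTypes.shrink]

theorem shrink_map_symm_apply {T T' : Scheme.{u}ᵒᵖ} (f : T ⟶ T')
    (x : (FunctorToTypes.shrink.{u} G).obj T) :
    (equivShrink.{u} (G.obj T')).symm ((FunctorToTypes.shrink.{u} G).map f x) =
      G.map f ((equivShrink.{u} (G.obj T)).symm x) := by
  obtain ⟨y, rfl⟩ := (equivShrink.{u} (G.obj T)).surjective x
  rw [shrink_map_apply, Equiv.symm_apply_apply, Equiv.symm_apply_apply]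

theorem IsZarSheafAbs.shrink (hG : IsZarSheafAbs G) :
    IsZarSheafAbs (FunctorToTypes.shrink.{u} G) where
  sep T ι U hU η η' h := by
    apply (equivShrink.{u} (G.obj (op T))).symm.injective
    refine hG.sep T U hU _ _ fun i => ?_
    rw [← shrink_map_symm_apply, ← shrink_map_symm_apply, h i]
  glue T ι U hU η h := by
    obtain ⟨η₀, hη₀⟩ := hG.glue T U hU (fun i => (equivShrink.{u} _).symm (η i)) (fun i j => by
      rw [← shrink_map_symm_apply, ← shrink_map_symm_apply, h i j])
    refine ⟨equivShrink.{u} _ η₀, fun i => ?_⟩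
    rw [shrink_map_apply, hη₀, Equiv.apply_symm_apply]

/-- transport of an atlas to the shrunk presheaf -/
noncomputable def FullAtlas.shrink (𝔄 : FullAtlas G) : FullAtlas (FunctorToTypes.shrink.{u} G) where
  ι := 𝔄.ι
  X := 𝔄.X
  ξ i := equivShrink.{u} _ (𝔄.ξ i)
  inj i T a b h := by
    rw [shrink_map_apply, shrink_map_apply] at h
    exact 𝔄.inj i T a b ((equivShrink.{u} _).injective h)
  isOpen i T η := by
    obtain ⟨U, hU⟩ := 𝔄.isOpen i T ((equivShrink.{u} _).symm η)
    refine ⟨U, fun T' f => ?_⟩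
    rw [← hU T' f]
    refine exists_congr fun a => ?_
    rw [shrink_map_apply, ← shrink_map_symm_apply, Equiv.eq_symm_apply]
  cover T η x := by
    obtain ⟨i, U, a, hx, ha⟩ := 𝔄.cover T ((equivShrink.{u} _).symm η) x
    refine ⟨i, U, a, hx, ?_⟩
    rw [shrink_map_apply, ha, ← shrink_map_symm_apply, Equiv.apply_symm_apply]

end shrink

/-- **R2, absolute form, full atlas.** -/
theorem FullAtlas.exists_isRepr (hG : IsZarSheafAbs G) (𝔄 : FullAtlas G) :
    ∃ (J : Scheme.{u}) (ζ : G.obj (op J)), 𝔄.IsRepr J ζ := by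
  have : FunctorToTypes.Small.{u} G := 𝔄.small hG
  obtain ⟨J, ζ, huniv, j, hj, hjζ, hcov⟩ := 𝔄.shrink.exists_isRepr_of_isSheaf hG.shrink.isSheaf
  refine ⟨J, (equivShrink.{u} _).symm ζ, fun T η => ?_, j, hj, fun i => ?_, hcov⟩
  · obtain ⟨g, hg, huniq⟩ := huniv T (equivShrink.{u} _ η)
    refine ⟨g, ?_, fun g' hg' => huniq g' ?_⟩
    · dsimp only
      rw [← shrink_map_symm_apply, hg, Equiv.symm_apply_apply]
    · dsimp only at hg' ⊢
      rw [← hg', ← shrink_map_symm_apply, Equiv.apply_symm_apply]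
  · have h := hjζ i
    rw [← shrink_map_symm_apply]
    exact (Equiv.symm_apply_eq _).mpr h

/-- **R2, absolute form.** -/
theorem AbsAtlas.exists_isRepr (hG : IsZarSheafAbs G) (𝔄 : AbsAtlas G) :
    ∃ (J : Scheme.{u}) (ζ : G.obj (op J)), (𝔄.toFull hG).IsRepr J ζ :=
  (𝔄.toFull hG).exists_isRepr hG

end Fermat.Agent.S25
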