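import Fermat.Agent.S25.ReprDefs
import Fermat.Agent.S25.R.AbsMain

/-!
# S25 / layer R / R2-B : from presheaves on `Over S` to presheaves on all schemes
-/

set_option autoImplicit false

universe u

open CategoryTheory Limits AlgebraicGeometry Opposite

namespace Fermat.Agent.S25

variable {S : Scheme.{u}} (F : (Over S)ᵒᵖ ⥤ Type (u + 1))

/-- sections of the absolute presheaf -/
abbrev AbsSec (T : Scheme.{u}) : Type (u + 1) := Σ t : T ⟶ S, F.obj (op (Over.mk t))

variable {F}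

theorem map_op_map_op {A B C : Over S} (a : A ⟶ B) (b : B ⟶ C) (x : F.obj (op C)) :
    F.map a.op (F.map b.op x) = F.map (a ≫ b).op x := by
  rw [op_comp, Functor.map_comp_apply]

theorem map_op_id {A : Over S} (x : F.obj (op A)) : F.map (𝟙 A).op x = x := by
  simp

/-- the identity, as a morphism between two equal structures over `S`. -/
abbrev overCast {T : Scheme.{u}} {t t' : T ⟶ S} (h : t = t') : Over.mk t' ⟶ Over.mk t :=
  Over.homMk (𝟙 T) (by simp [h])

/-- extensionality for `AbsSec` -/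
theorem AbsSec.mk_eq_mk_iff {T : Scheme.{u}} {t t' : T ⟶ S} (η : F.obj (op (Over.mk t)))
    (η' : F.obj (op (Over.mk t'))) :
    (⟨t, η⟩ : AbsSec F T) = ⟨t', η'⟩ ↔ ∃ h : t = t', F.map (overCast h).op η = η' := by
  constructor
  · intro h
    obtain ⟨h1, h2⟩ := Sigma.mk.inj_iff.mp h
    subst h1
    refine ⟨rfl, ?_⟩
    rw [← eq_of_heq h2]
    exact map_op_id η
  · rintro ⟨rfl, h'⟩
    rw [← h']
    congr 1
    exact (map_op_id η).symm

/-- restriction of sections of the absolute presheaf -/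
def AbsSec.res {T T' : Scheme.{u}} (f : T' ⟶ T) (x : AbsSec F T) : AbsSec F T' :=
  ⟨f ≫ x.1, F.map (Over.homMk f rfl : Over.mk (f ≫ x.1) ⟶ Over.mk x.1).op x.2⟩

theorem AbsSec.res_mk {T T' : Scheme.{u}} (f : T' ⟶ T) (t : T ⟶ S) (η : F.obj (op (Over.mk t))) :
    AbsSec.res f (⟨t, η⟩ : AbsSec F T) =
      ⟨f ≫ t, F.map (Over.homMk f rfl : Over.mk (f ≫ t) ⟶ Over.mk t).op η⟩ := rfl

theorem AbsSec.res_id {T : Scheme.{u}} (x : AbsSec F T) : AbsSec.res (𝟙 T) x = x := by
  obtain ⟨t, η⟩ := x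
  rw [AbsSec.res_mk, AbsSec.mk_eq_mk_iff]
  refine ⟨Category.id_comp _, ?_⟩
  rw [map_op_map_op]
  convert map_op_id η using 4
  ext
  simp

theorem AbsSec.res_comp {T T' T'' : Scheme.{u}} (f : T' ⟶ T) (g : T'' ⟶ T') (x : AbsSec F T) :
    AbsSec.res (g ≫ f) x = AbsSec.res g (AbsSec.res f x) := by
  obtain ⟨t, η⟩ := x
  rw [AbsSec.res_mk, AbsSec.res_mk, AbsSec.res_mk, AbsSec.mk_eq_mk_iff]
  refine ⟨Category.assoc _ _ _, ?_⟩
  rw [map_op_map_op, map_op_map_op]
  congr 3

variable (F)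

/-- the absolute presheaf `T ↦ Σ t : T ⟶ S, F (T, t)`. -/
def absF : Scheme.{u}ᵒᵖ ⥤ Type (u + 1) where
  obj T := AbsSec F T.unop
  map f := ↾(AbsSec.res f.unop)
  map_id T := by
    apply ConcreteCategory.hom_ext
    intro x
    exact AbsSec.res_id x
  map_comp f g := by
    apply ConcreteCategory.hom_ext
    intro x
    exact AbsSec.res_comp f.unop g.unop x

variable {F}

theorem absF_map_apply {T T' : Scheme.{u}} (f : T' ⟶ T) (x : AbsSec F T) :
    (absF F).map f.op x = AbsSec.res f x := rfl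

/-- two parallel composites of morphisms over `S` with the same underlying morphism of schemes
induce the same map on sections -/
theorem map_op_congr {A B : Over S} {a b : A ⟶ B} (h : a.left = b.left) (x : F.obj (op B)) :
    F.map a.op x = F.map b.op x := by
  rw [Over.OverMorphism.ext h]

theorem IsZariskiSheaf.absF (hF : IsZariskiSheaf F) : IsZarSheafAbs (absF F) where
  sep T ι U hU x y h := by
    obtain ⟨t, η⟩ := x
    obtain ⟨t', η'⟩ := y
    have h1 : ∀ i, ∃ h : (U i).ι ≫ t = (U i).ι ≫ t', F.map (overCast h).op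
        (F.map (Over.homMk (U i).ι rfl : Over.mk ((U i).ι ≫ t) ⟶ Over.mk t).op η) =
        F.map (Over.homMk (U i).ι rfl : Over.mk ((U i).ι ≫ t') ⟶ Over.mk t').op η' := fun i =>
      (AbsSec.mk_eq_mk_iff _ _).mp (h i)
    have ht : t = t' := hom_ext_of_iSup_opens U hU t t' fun i => (h1 i).1
    subst ht
    refine (AbsSec.mk_eq_mk_iff _ _).mpr ⟨rfl, ?_⟩
    rw [show F.map (overCast (rfl : t = t)).op η = η from map_op_id η]
    refine hF.sep (Over.mk t) U hU η η' fun i => ?_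
    obtain ⟨h0, h2⟩ := h1 i
    rw [show ∀ z, F.map (overCast (rfl : (U i).ι ≫ t = (U i).ι ≫ t)).op z = z from
      fun z => map_op_id z] at h2
    exact h2
  glue T ι U hU x h := by
    have h1 : ∀ i j, ∃ h : T.homOfLE (inf_le_left : U i ⊓ U j ≤ U i) ≫ (x i).1 =
          T.homOfLE (inf_le_right : U i ⊓ U j ≤ U j) ≫ (x j).1,
        F.map (overCast h).op (F.map (Over.homMk (T.homOfLE (inf_le_left : U i ⊓ U j ≤ U i)) rfl :
            Over.mk (T.homOfLE (inf_le_left : U i ⊓ U j ≤ U i) ≫ (x i).1) ⟶ Over.mk (x i).1).op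
              (x i).2) =
          F.map (Over.homMk (T.homOfLE (inf_le_right : U i ⊓ U j ≤ U j)) rfl :
            Over.mk (T.homOfLE (inf_le_right : U i ⊓ U j ≤ U j) ≫ (x j).1) ⟶ Over.mk (x j).1).op
              (x j).2 := fun i j =>
      (AbsSec.mk_eq_mk_iff _ _).mp (h i j)
    obtain ⟨t, ht⟩ := exists_glue_hom_of_iSup_opens U hU (fun i => (x i).1) fun i j => (h1 i j).1
    obtain ⟨η₀, hη₀⟩ := hF.glue (Over.mk t) U hU
      (fun i => F.map (overCast (ht i).symm).op (x i).2) (fun i j => by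
        obtain ⟨h2, h3⟩ := h1 i j
        have h4 : T.homOfLE (inf_le_right : U i ⊓ U j ≤ U j) ≫ (x j).1 = (U i ⊓ U j).ι ≫ t := by
          rw [← ht j, Scheme.homOfLE_ι_assoc]
        have h5 := congrArg (fun z => F.map (overCast h4).op z) h3
        simp only [map_op_map_op] at h5 ⊢
        refine Eq.trans ?_ (h5.trans ?_)
        · refine (map_op_map_op (B := Over.mk ((U i).ι ≫ t))
            (overOpenLE (Over.mk t) (inf_le_left : U i ⊓ U j ≤ U i)) (overCast (ht i).symm) _).trans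
            (map_op_congr ?_ _)
          simp only [Over.comp_left, Over.homMk_left, overOpenLE]
          rfl
        · refine (map_op_congr ?_ _).trans (map_op_map_op (B := Over.mk ((U j).ι ≫ t))
            (overOpenLE (Over.mk t) (inf_le_right : U i ⊓ U j ≤ U j)) (overCast (ht j).symm) _).symm
          simp only [Over.comp_left, Over.homMk_left, overOpenLE]
          rfl)
    refine ⟨(⟨t, η₀⟩ : AbsSec F T), fun i => ?_⟩
    change AbsSec.res (U i).ι (⟨t, η₀⟩ : AbsSec F T) = x i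
    rw [AbsSec.res_mk, ← Sigma.eta (x i), AbsSec.mk_eq_mk_iff]
    refine ⟨ht i, ?_⟩
    have h6 := hη₀ i
    change F.map (Over.homMk (U i).ι rfl : Over.mk ((U i).ι ≫ t) ⟶ Over.mk t).op η₀ = _ at h6
    rw [h6, map_op_map_op]
    exact (map_op_congr (by simp) _).trans (map_op_id _)

/-- a section over an `S`-scheme, as a section of the absolute presheaf -/
abbrev AbsSec.of {X : Over S} (ξ : F.obj (op X)) : AbsSec F X.left := ⟨X.hom, ξ⟩

theorem AbsSec.res_of_eq_mk_iff {X : Over S} (ξ : F.obj (op X)) {T : Scheme.{u}} (a : T ⟶ X.left)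
    (t : T ⟶ S) (η : F.obj (op (Over.mk t))) :
    AbsSec.res a (AbsSec.of ξ) = ⟨t, η⟩ ↔
      ∃ h : a ≫ X.hom = t, F.map (Over.homMk a h : Over.mk t ⟶ X).op ξ = η := by
  rw [AbsSec.res_mk, AbsSec.mk_eq_mk_iff]
  refine exists_congr fun h => ?_
  rw [map_op_map_op]
  rw [map_op_congr (b := (Over.homMk a h : Over.mk t ⟶ X)) (by simp)]

/-- the atlas of the absolute presheaf -/
def AffineAtlas.abs (𝔄 : AffineAtlas F) : AbsAtlas (absF F) where
  ι := 𝔄.ι
  X i := (𝔄.X i).left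
  ξ i := AbsSec.of (𝔄.ξ i)
  inj i R a b h := by
    change AbsSec.res a (AbsSec.of (𝔄.ξ i)) = AbsSec.res b (AbsSec.of (𝔄.ξ i)) at h
    rw [AbsSec.res_mk b, AbsSec.res_of_eq_mk_iff] at h
    obtain ⟨h1, h2⟩ := h
    exact congrArg (fun z => z.left) (𝔄.inj i R _ (Over.homMk a h1) (Over.homMk b rfl) h2)
  isOpen i R η := by
    obtain ⟨t, η⟩ := η
    obtain ⟨U, hU⟩ := 𝔄.isOpen i R t η
    refine ⟨U, fun R' f => ?_⟩
    rw [← hU R' f]
    constructor
    · rintro ⟨a, ha⟩
      change AbsSec.res a (AbsSec.of (𝔄.ξ i)) = AbsSec.res f ⟨t, η⟩ at ha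
      rw [AbsSec.res_mk f, AbsSec.res_of_eq_mk_iff] at ha
      obtain ⟨h1, h2⟩ := ha
      exact ⟨Over.homMk a h1, h2⟩
    · rintro ⟨a, ha⟩
      refine ⟨a.left, ?_⟩
      change AbsSec.res a.left (AbsSec.of (𝔄.ξ i)) = AbsSec.res f ⟨t, η⟩
      rw [AbsSec.res_mk f, AbsSec.res_of_eq_mk_iff]
      exact ⟨Over.w a, ha⟩
  cover K _ η := by
    obtain ⟨t, η⟩ := η
    obtain ⟨i, a, ha⟩ := 𝔄.cover K t η
    refine ⟨i, a.left, ?_⟩
    change AbsSec.res a.left (AbsSec.of (𝔄.ξ i)) = ⟨t, η⟩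
    rw [AbsSec.res_of_eq_mk_iff]
    exact ⟨Over.w a, ha⟩

end Fermat.Agent.S25
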