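import Fermat.Agent.S25.ReprDefs
import Fermat.Agent.S25.R.Abs

/-!
# S25 / layer R / R2
-/

set_option autoImplicit false

universe u

open CategoryTheory Limits AlgebraicGeometry Opposite

namespace Fermat.Agent.S25

variable {S : Scheme.{u}}

/-- **R2**.  A Zariski sheaf with an affine-tested atlas is representable, by a scheme which is
covered by the charts. -/
theorem exists_isUniversal_of_affineAtlas (F : (Over S)ᵒᵖ ⥤ Type (u + 1)) (hF : IsZariskiSheaf F)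
    (𝔄 : AffineAtlas F) :
    ∃ (J : Over S) (ζ : F.obj (op J)), IsUniversal F J ζ ∧
      ∃ j : ∀ i, 𝔄.X i ⟶ J, (∀ i, IsOpenImmersion (j i).left) ∧
        (∀ i, F.map (j i).op ζ = 𝔄.ξ i) ∧ ∀ p : J.left, ∃ i, p ∈ Set.range (j i).left.base := by
  obtain ⟨J, ⟨tJ, ζ⟩, huniv, j, hj, hjζ, hcov⟩ := 𝔄.abs.exists_isRepr hF.absF
  have key : ∀ (T : Over S) (g : T.left ⟶ J) (η : F.obj (op T)),
      (absF F).map g.op (⟨tJ, ζ⟩ : AbsSec F J) = AbsSec.of η ↔
        ∃ h : g ≫ tJ = T.hom, F.map (Over.homMk g h : T ⟶ Over.mk tJ).op ζ = η := fun T g η =>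
    AbsSec.res_of_eq_mk_iff (X := Over.mk tJ) ζ g T.hom η
  refine ⟨Over.mk tJ, ζ, ?_, ?_⟩
  · intro T η
    obtain ⟨g, hg, huniq⟩ := huniv T.left (AbsSec.of η)
    obtain ⟨h1, h2⟩ := (key T g η).mp hg
    refine ⟨Over.homMk g h1, h2, fun g' hg' => ?_⟩
    have h3 := huniq g'.left ((key T g'.left η).mpr ⟨Over.w g', hg'⟩)
    exact Over.OverMorphism.ext h3
  · have h4 := fun i => (key (𝔄.X i) (j i) (𝔄.ξ i)).mp (hjζ i)
    exact ⟨fun i => Over.homMk (j i) (h4 i).1, hj, fun i => (h4 i).2, hcov⟩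

end Fermat.Agent.S25
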