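import Mathlib

/-!
# S25 / layer R / R2 : absolute version of the representability criterion, definitions

`G : Schemeᵒᵖ ⥤ Type v` is a presheaf on ALL schemes (no base, any universe of values).
Everything in `R/Abs*.lean`, `R/ZarSheaf.lean` is pure Mathlib scheme theory.
-/

set_option autoImplicit false

universe v u

open CategoryTheory Limits AlgebraicGeometry Opposite

namespace Fermat.Agent.S25

/-- `G` is a sheaf for Zariski open covers (explicit form, covers by open subschemes). -/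
structure IsZarSheafAbs (G : Scheme.{u}ᵒᵖ ⥤ Type v) : Prop where
  sep : ∀ (T : Scheme.{u}) {ι : Type u} (U : ι → T.Opens) (_ : ⨆ i, U i = ⊤)
      (η η' : G.obj (op T)),
      (∀ i, G.map (U i).ι.op η = G.map (U i).ι.op η') → η = η'
  glue : ∀ (T : Scheme.{u}) {ι : Type u} (U : ι → T.Opens) (_ : ⨆ i, U i = ⊤)
      (η : ∀ i, G.obj (op (U i).toScheme)),
      (∀ i j, G.map (T.homOfLE (inf_le_left : U i ⊓ U j ≤ U i)).op (η i) =
              G.map (T.homOfLE (inf_le_right : U i ⊓ U j ≤ U j)).op (η j)) →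
      ∃ η₀ : G.obj (op T), ∀ i, G.map (U i).ι.op η₀ = η i

/-- An atlas of a presheaf `G` on schemes, all conditions being tested on AFFINE schemes only. -/
structure AbsAtlas (G : Scheme.{u}ᵒᵖ ⥤ Type v) where
  ι : Type u
  X : ι → Scheme.{u}
  ξ : ∀ i, G.obj (op (X i))
  inj : ∀ (i : ι) (R : CommRingCat.{u}) (a b : Spec R ⟶ X i),
      G.map a.op (ξ i) = G.map b.op (ξ i) → a = b
  isOpen : ∀ (i : ι) (R : CommRingCat.{u}) (η : G.obj (op (Spec R))),
      ∃ U : (Spec R).Opens, ∀ (R' : CommRingCat.{u}) (f : Spec R' ⟶ Spec R),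
        (∃ a : Spec R' ⟶ X i, G.map a.op (ξ i) = G.map f.op η) ↔
          Set.range f.base ⊆ (U : Set (Spec R))
  cover : ∀ (K : Type u) [Field K] (η : G.obj (op (Spec (CommRingCat.of K)))),
      ∃ (i : ι) (a : Spec (CommRingCat.of K) ⟶ X i), G.map a.op (ξ i) = η

/-- An atlas, all conditions being tested on ALL schemes. -/
structure FullAtlas (G : Scheme.{u}ᵒᵖ ⥤ Type v) where
  ι : Type u
  X : ι → Scheme.{u}
  ξ : ∀ i, G.obj (op (X i))
  inj : ∀ (i : ι) (T : Scheme.{u}) (a b : T ⟶ X i),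
      G.map a.op (ξ i) = G.map b.op (ξ i) → a = b
  isOpen : ∀ (i : ι) (T : Scheme.{u}) (η : G.obj (op T)),
      ∃ U : T.Opens, ∀ (T' : Scheme.{u}) (f : T' ⟶ T),
        (∃ a : T' ⟶ X i, G.map a.op (ξ i) = G.map f.op η) ↔ Set.range f.base ⊆ (U : Set T)
  cover : ∀ (T : Scheme.{u}) (η : G.obj (op T)) (x : T),
      ∃ (i : ι) (U : T.Opens) (a : U.toScheme ⟶ X i), x ∈ U ∧ G.map a.op (ξ i) = G.map U.ι.op η

/-- the conclusion: `(J, ζ)` represents `G` and the charts form an open cover of `J`. -/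
def FullAtlas.IsRepr {G : Scheme.{u}ᵒᵖ ⥤ Type v} (𝔄 : FullAtlas G) (J : Scheme.{u})
    (ζ : G.obj (op J)) : Prop :=
  (∀ (T : Scheme.{u}) (η : G.obj (op T)), ∃! g : T ⟶ J, G.map g.op ζ = η) ∧
    ∃ j : ∀ i, 𝔄.X i ⟶ J, (∀ i, IsOpenImmersion (j i)) ∧ (∀ i, G.map (j i).op ζ = 𝔄.ξ i) ∧
      ∀ p : J, ∃ i, p ∈ Set.range (j i).base

end Fermat.Agent.S25
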