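import Fermat.Agent.S25.R.OpensGlue

/-!
# S25 / layer R / R2-A1 : from affine test schemes to all schemes

Pure Mathlib scheme theory.
* `inj'` : cover `T` by affine opens (`T.affineCover.hom_ext`), apply `𝔄.inj` to `T.affineCover.f j ≫ a`.
* `exists_locus` : for every affine open `W : T.affineOpens` let `e_W : Spec Γ(T, W) ≅ W` (`IsAffineOpen.isoSpec`, or
  use `hW.fromSpec : Spec Γ(T,W) ⟶ T`, an open immersion with range `W`), `U_W ⊆ Spec Γ(T,W)` the open given by `𝔄.isOpen` for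
  `G.map hW.fromSpec.op η`.  `U := ⨆ W, hW.fromSpec ''ᵁ U_W`.
  (⇒) `a : T' ⟶ X i` with `a^*ξ = f^*η`, `x : T'`.  Choose an affine open `W ∋ f x` and an affine open `V ∋ x` with `V ≤ f ⁻¹ᵁ W`.
       `hV.fromSpec ≫ f` factors as `c ≫ hW.fromSpec` (`IsOpenImmersion.lift`), `c : Spec Γ(T',V) ⟶ Spec Γ(T,W)`;
       `hV.fromSpec ≫ a` witnesses the left side of `𝔄.isOpen` for `c`; hence `range c ⊆ U_W`, so `f x ∈ U`.
  (⇐) `range f ⊆ U`.  For `x : T'` choose `W` with `f x ∈ hW.fromSpec ''ᵁ U_W` and an affine open `V_x ∋ x` contained in the preimage.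
       As above `hV.fromSpec ≫ f = c ≫ hW.fromSpec` with `range c ⊆ U_W`, so there is `b : Spec Γ(T',V_x) ⟶ X i` with `b^*ξ = c^*(..η)`;
       transport to `a_x : V_x.toScheme ⟶ X i` with `a_x^* ξ = (V_x.ι ≫ f)^* η`.  By `inj'` they agree on `V_x ⊓ V_y`;
       glue (`exists_glue_hom_of_iSup_opens`), and conclude with `hG.sep`.
* `exists_chart_nhd` : `x : T`, `s := T.fromSpecResidueField x : Spec κ(x) ⟶ T` with range `{x}` ; `𝔄.cover κ(x) (G.map s.op η)` gives `i`, `a`;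
  `U` := the locus of `exists_locus`; (⇒) gives `x ∈ U`, (⇐) applied to `U.ι` (range `= U`, `Scheme.Opens.range_ι`) gives the chart map.
-/

set_option autoImplicit false

universe v u

open CategoryTheory Limits AlgebraicGeometry Opposite

namespace Fermat.Agent.S25

variable {G : Scheme.{u}ᵒᵖ ⥤ Type v}

theorem AbsAtlas.inj' (𝔄 : AbsAtlas G) (i : 𝔄.ι) (T : Scheme.{u}) (a b : T ⟶ 𝔄.X i)
    (h : G.map a.op (𝔄.ξ i) = G.map b.op (𝔄.ξ i)) : a = b := by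
  have key : ∀ {T' : Scheme.{u}} (c : T' ⟶ T),
      G.map (c ≫ a).op (𝔄.ξ i) = G.map (c ≫ b).op (𝔄.ξ i) := by
    intro T' c
    rw [op_comp, op_comp, Functor.map_comp_apply, Functor.map_comp_apply, h]
  refine T.affineCover.hom_ext _ _ fun j => ?_
  exact 𝔄.inj i _ _ _ (key _)

theorem absMapComp {A B C : Scheme.{u}} (p : A ⟶ B) (q : B ⟶ C) (η : G.obj (op C)) :
    G.map (p ≫ q).op η = G.map p.op (G.map q.op η) := by
  rw [op_comp, Functor.map_comp_apply]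

theorem AbsAtlas.exists_locus (hG : IsZarSheafAbs G) (𝔄 : AbsAtlas G) (i : 𝔄.ι) (T : Scheme.{u})
    (η : G.obj (op T)) :
    ∃ U : T.Opens, ∀ (T' : Scheme.{u}) (f : T' ⟶ T),
      (∃ a : T' ⟶ 𝔄.X i, G.map a.op (𝔄.ξ i) = G.map f.op η) ↔ Set.range f.base ⊆ (U : Set T) := by
  let 𝒱 : Type u := {V : T.Opens // ∃ a : V.toScheme ⟶ 𝔄.X i,
    G.map a.op (𝔄.ξ i) = G.map V.ι.op η}
  refine ⟨⨆ V : 𝒱, V.1, fun T' f => ⟨?_, ?_⟩⟩
  · rintro ⟨a, ha⟩ _ ⟨x, rfl⟩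
    -- affine chart around `f x`
    obtain ⟨R, j, hj, hxj, -⟩ :=
      Scheme.exists_affine_mem_range_and_range_subset (X := T) (x := f.base x) (U := ⊤) trivial
    obtain ⟨UR, hUR⟩ := 𝔄.isOpen i R (G.map j.op η)
    have hx' : x ∈ f ⁻¹ᵁ j.opensRange := hxj
    obtain ⟨R', j', hj', hxj', hsub'⟩ :=
      Scheme.exists_affine_mem_range_and_range_subset hx'
    have hr : Set.range (j' ≫ f).base ⊆ Set.range j.base := by
      rintro _ ⟨y, rfl⟩
      exact hsub' ⟨y, rfl⟩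
    have hc : IsOpenImmersion.lift j (j' ≫ f) hr ≫ j = j' ≫ f := IsOpenImmersion.lift_fac _ _ _
    have h1 : Set.range (IsOpenImmersion.lift j (j' ≫ f) hr).base ⊆ (UR : Set (Spec R)) := by
      refine (hUR R' _).1 ⟨j' ≫ a, ?_⟩
      rw [absMapComp, ha, ← absMapComp, ← absMapComp, hc]
    have h2 : f.base x ∈ j ''ᵁ UR := by
      obtain ⟨y, hy⟩ := hxj'
      refine ⟨(IsOpenImmersion.lift j (j' ≫ f) hr).base y, h1 ⟨y, rfl⟩, ?_⟩
      rw [← hy]
      exact congrArg (fun φ : Spec R' ⟶ T => φ.base y) hc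
    obtain ⟨R'', j'', hj'', hxj'', hsub''⟩ :=
      Scheme.exists_affine_mem_range_and_range_subset h2
    have hr'' : Set.range j''.base ⊆ Set.range j.base := by
      rintro _ ⟨y, rfl⟩
      obtain ⟨z, -, hz⟩ := hsub'' ⟨y, rfl⟩
      exact ⟨z, hz⟩
    have hc'' : IsOpenImmersion.lift j j'' hr'' ≫ j = j'' := IsOpenImmersion.lift_fac _ _ _
    have h3 : Set.range (IsOpenImmersion.lift j j'' hr'').base ⊆ (UR : Set (Spec R)) := by
      rintro _ ⟨y, rfl⟩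
      obtain ⟨z, hz, hz'⟩ := hsub'' ⟨y, rfl⟩
      have : j.base z = j.base ((IsOpenImmersion.lift j j'' hr'').base y) := by
        refine Eq.trans hz' ?_
        exact (congrArg (fun φ : Spec R'' ⟶ T => φ.base y) hc'').symm
      rw [← j.isOpenEmbedding.injective this]
      exact hz
    obtain ⟨b, hb⟩ := (hUR R'' _).2 h3
    rw [← absMapComp, hc''] at hb
    have hV : ∃ a : j''.opensRange.toScheme ⟶ 𝔄.X i,
        G.map a.op (𝔄.ξ i) = G.map j''.opensRange.ι.op η := by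
      refine ⟨j''.isoOpensRange.inv ≫ b, ?_⟩
      rw [absMapComp, hb, ← absMapComp, Scheme.Hom.isoOpensRange_inv_comp]
    exact TopologicalSpace.Opens.mem_iSup.2 ⟨(⟨j''.opensRange, hV⟩ : 𝒱), hxj''⟩
  · intro hf
    choose a ha using fun V : 𝒱 => V.2
    obtain ⟨g, hg⟩ : ∃ g : ∀ V : 𝒱, (f ⁻¹ᵁ V.1).toScheme ⟶ 𝔄.X i,
        ∀ V : 𝒱, G.map (g V).op (𝔄.ξ i) = G.map ((f ⁻¹ᵁ V.1).ι ≫ f).op η := by
      refine ⟨fun V => (f ∣_ V.1) ≫ a V, fun V => ?_⟩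
      rw [absMapComp, ha, ← absMapComp, morphismRestrict_ι]
    have hcov : ⨆ V : 𝒱, f ⁻¹ᵁ V.1 = ⊤ := by
      refine top_le_iff.1 fun x _ => ?_
      obtain ⟨V, hV⟩ := TopologicalSpace.Opens.mem_iSup.1 (hf ⟨x, rfl⟩)
      exact TopologicalSpace.Opens.mem_iSup.2 ⟨V, hV⟩
    obtain ⟨g₀, hg₀⟩ := exists_glue_hom_of_iSup_opens (fun V : 𝒱 => f ⁻¹ᵁ V.1) hcov g (by
      intro V W
      apply 𝔄.inj'
      rw [absMapComp, absMapComp, hg, hg, ← absMapComp, ← absMapComp, ← Category.assoc,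
        ← Category.assoc, Scheme.homOfLE_ι, Scheme.homOfLE_ι])
    refine ⟨g₀, hG.sep T' (fun V : 𝒱 => f ⁻¹ᵁ V.1) hcov _ _ fun V => ?_⟩
    rw [← absMapComp, hg₀, hg, absMapComp]

theorem AbsAtlas.exists_chart_nhd (hG : IsZarSheafAbs G) (𝔄 : AbsAtlas G) (T : Scheme.{u})
    (η : G.obj (op T)) (x : T) :
    ∃ (i : 𝔄.ι) (U : T.Opens) (a : U.toScheme ⟶ 𝔄.X i),
      x ∈ U ∧ G.map a.op (𝔄.ξ i) = G.map U.ι.op η := by
  obtain ⟨i, a, ha⟩ := 𝔄.cover (T.residueField x) (G.map (T.fromSpecResidueField x).op η)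
  obtain ⟨U, hU⟩ := 𝔄.exists_locus hG i T η
  have hx : x ∈ U := by
    have := (hU _ (T.fromSpecResidueField x)).1 ⟨a, ha⟩
    rw [Scheme.range_fromSpecResidueField] at this
    exact this rfl
  obtain ⟨b, hb⟩ := (hU _ U.ι).2 (by rw [Scheme.Opens.range_ι])
  exact ⟨i, U, b, hx, hb⟩

/-- the atlas, tested on all schemes -/
def AbsAtlas.toFull (hG : IsZarSheafAbs G) (𝔄 : AbsAtlas G) : FullAtlas G where
  ι := 𝔄.ι
  X := 𝔄.X
  ξ := 𝔄.ξ
  inj := 𝔄.inj'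
  isOpen := 𝔄.exists_locus hG
  cover := 𝔄.exists_chart_nhd hG

end Fermat.Agent.S25
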