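import Fermat.Agent.S25.R.Sheaf

/-!
# S25 / layer R : atlases tested on ALL schemes
-/

set_option autoImplicit false

universe u

open CategoryTheory Limits AlgebraicGeometry Opposite

namespace Fermat.Agent.S25.R

variable {S : Scheme.{u}}

/-- An atlas of a presheaf `F` on `S`-schemes, all conditions being tested on ALL schemes. -/
structure Atlas (F : (Over S)ᵒᵖ ⥤ Type (u + 1)) where
  ι : Type u
  X : ι → Over S
  ξ : ∀ i, F.obj (op (X i))
  inj : ∀ (i : ι) (T : Over S) (a b : T ⟶ X i), F.map a.op (ξ i) = F.map b.op (ξ i) → a = b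
  /-- the open locus where `η` comes from the chart `i` -/
  L : ∀ (i : ι) (T : Over S) (_ : F.obj (op T)), T.left.Opens
  mem_L : ∀ (i : ι) (T : Over S) (η : F.obj (op T)) (T' : Over S) (f : T' ⟶ T),
    (∃ a : T' ⟶ X i, F.map a.op (ξ i) = F.map f.op η) ↔
      Set.range f.left.base ⊆ (L i T η : Set T.left)
  cover : ∀ (T : Over S) (η : F.obj (op T)), ⨆ i, L i T η = ⊤

namespace Atlas

variable {F : (Over S)ᵒᵖ ⥤ Type (u + 1)} (𝔄 : Atlas F)

theorem exists_chart (i : 𝔄.ι) (T : Over S) (η : F.obj (op T)) :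
    ∃ a : overOpen T (𝔄.L i T η) ⟶ 𝔄.X i,
      F.map a.op (𝔄.ξ i) = F.map (overOpenι T (𝔄.L i T η)).op η :=
  (𝔄.mem_L i T η _ _).2 (range_overOpenι T _).le

/-- the classifying morphism of `η` on the locus of the chart `i` -/
noncomputable def χ (i : 𝔄.ι) (T : Over S) (η : F.obj (op T)) :
    overOpen T (𝔄.L i T η) ⟶ 𝔄.X i :=
  (𝔄.exists_chart i T η).choose

theorem map_χ (i : 𝔄.ι) (T : Over S) (η : F.obj (op T)) :
    F.map (𝔄.χ i T η).op (𝔄.ξ i) = F.map (overOpenι T (𝔄.L i T η)).op η :=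
  (𝔄.exists_chart i T η).choose_spec

/-- the overlap of the charts `i` and `j`, as an open of `X i` -/
noncomputable def V (i j : 𝔄.ι) : (𝔄.X i).left.Opens := 𝔄.L j (𝔄.X i) (𝔄.ξ i)

/-- the overlap of the charts `i` and `j`, as an object of `Over S` -/
noncomputable abbrev VV (i j : 𝔄.ι) : Over S := overOpen (𝔄.X i) (𝔄.V i j)

/-- the inclusion of the overlap -/
noncomputable abbrev f (i j : 𝔄.ι) : 𝔄.VV i j ⟶ 𝔄.X i := overOpenι (𝔄.X i) (𝔄.V i j)

/-- the transition map `V i j ⟶ X j` -/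
noncomputable def a (i j : 𝔄.ι) : 𝔄.VV i j ⟶ 𝔄.X j := 𝔄.χ j (𝔄.X i) (𝔄.ξ i)

theorem map_a (i j : 𝔄.ι) : F.map (𝔄.a i j).op (𝔄.ξ j) = F.map (𝔄.f i j).op (𝔄.ξ i) :=
  𝔄.map_χ j (𝔄.X i) (𝔄.ξ i)

end Atlas

end Fermat.Agent.S25.R
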