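import Fermat.Agent.S25.ReprDefs

/-!
# S25 / layer R : basic tools in `Over S`

Families of open immersions `f i : Y i ⟶ T` in `Over S` which are jointly surjective;
separation / gluing for a Zariski sheaf `F` and for morphisms along such families.
-/

set_option autoImplicit false

universe u

open CategoryTheory Limits AlgebraicGeometry Opposite

namespace Fermat.Agent.S25.R

variable {S : Scheme.{u}}

section Presheaf

variable (F : (Over S)ᵒᵖ ⥤ Type (u + 1))

theorem map_comp_apply {T T' T'' : Over S} (g : T'' ⟶ T') (f : T' ⟶ T) (η : F.obj (op T)) :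
    F.map (g ≫ f).op η = F.map g.op (F.map f.op η) := by
  rw [op_comp, F.map_comp]
  rfl

theorem map_id_apply (T : Over S) (η : F.obj (op T)) : F.map (𝟙 T).op η = η := by
  rw [op_id, F.map_id]
  rfl

end Presheaf

/-! ### open subschemes in `Over S` -/

theorem range_overOpenι (T : Over S) (U : T.left.Opens) :
    Set.range (overOpenι T U).left.base = (U : Set T.left) := by
  exact Scheme.Opens.range_ι U

instance isOpenImmersion_overOpenι (T : Over S) (U : T.left.Opens) :
    IsOpenImmersion (overOpenι T U).left := by
  change IsOpenImmersion U.ι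
  infer_instance

/-- A morphism of `Over S` whose underlying morphism of schemes is a monomorphism is mono. -/
theorem mono_of_isOpenImmersion {T T' : Over S} (f : T' ⟶ T) [IsOpenImmersion f.left] : Mono f := by
  exact (Over.forget S).mono_of_mono_map (inferInstanceAs (Mono f.left))

instance mono_overOpenι (T : Over S) (U : T.left.Opens) : Mono (overOpenι T U) :=
  mono_of_isOpenImmersion _

/-- Lifting a morphism through an open immersion, in `Over S`. -/
theorem exists_lift {T T' Y : Over S} (j : Y ⟶ T) [IsOpenImmersion j.left] (f : T' ⟶ T)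
    (h : Set.range f.left.base ⊆ Set.range j.left.base) : ∃ g : T' ⟶ Y, g ≫ j = f := by
  refine ⟨Over.homMk (IsOpenImmersion.lift j.left f.left h) ?_, ?_⟩
  · rw [← Over.w j, IsOpenImmersion.lift_fac_assoc, Over.w]
  · ext
    exact IsOpenImmersion.lift_fac _ _ _

/-- Lifting a morphism through an open subscheme, in `Over S`. -/
noncomputable def overLift (T : Over S) (U : T.left.Opens) {T' : Over S} (f : T' ⟶ T)
    (h : Set.range f.left.base ⊆ (U : Set T.left)) : T' ⟶ overOpen T U :=
  (exists_lift (overOpenι T U) f (by rw [range_overOpenι]; exact h)).choose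

@[reassoc (attr := simp)]
theorem overLift_ι (T : Over S) (U : T.left.Opens) {T' : Over S} (f : T' ⟶ T)
    (h : Set.range f.left.base ⊆ (U : Set T.left)) : overLift T U f h ≫ overOpenι T U = f :=
  (exists_lift (overOpenι T U) f (by rw [range_overOpenι]; exact h)).choose_spec

theorem overOpenLE_ι (T : Over S) {U V : T.left.Opens} (h : U ≤ V) :
    overOpenLE T h ≫ overOpenι T V = overOpenι T U := by
  ext
  exact Scheme.homOfLE_ι _ h

/-- An open immersion in `Over S` is isomorphic to the inclusion of its range. -/
theorem exists_iso_overOpen {T Y : Over S} (j : Y ⟶ T) [IsOpenImmersion j.left] :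
    ∃ e : Y ≅ overOpen T j.left.opensRange, e.hom ≫ overOpenι T j.left.opensRange = j := by
  refine ⟨Over.isoMk j.left.isoOpensRange ?_, ?_⟩
  · change j.left.isoOpensRange.hom ≫ j.left.opensRange.ι ≫ T.hom = Y.hom
    rw [Scheme.Hom.isoOpensRange_hom_ι_assoc, Over.w]
  · ext
    exact Scheme.Hom.isoOpensRange_hom_ι _

theorem isIso_overOpenι_top (T : Over S) {U : T.left.Opens} (hU : U = ⊤) :
    IsIso (overOpenι T U) := by
  subst hU
  have : IsIso ((Over.forget S).map (overOpenι T ⊤)) := by
    change IsIso T.left.topIso.hom
    infer_instance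
  exact isIso_of_reflects_iso _ (Over.forget S)

end Fermat.Agent.S25.R
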