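import Fermat.Agent.S25.ReprDefs

/-!
# S25 / layer R / R1

NOTE: the hypothesis `[Nonempty 𝔄.ι]` is necessary (the empty presheaf with the empty atlas
satisfies `IsZariskiSheaf₂` but has no section over the empty scheme).
-/

set_option autoImplicit false

universe u

open CategoryTheory Limits AlgebraicGeometry Opposite

namespace Fermat.Agent.S25

variable {S : Scheme.{u}}

namespace FiniteSheaf

/-- scheme level lift -/
noncomputable def liftS {X Y : Scheme.{u}} (U : X.Opens) (g : Y ⟶ X) (h : ∀ y : Y, g y ∈ U) :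
    Y ⟶ U.toScheme :=
  IsOpenImmersion.lift U.ι g (by
    rintro _ ⟨y, rfl⟩
    rw [Scheme.Opens.range_ι]
    exact h y)

@[reassoc]
lemma liftS_ι {X Y : Scheme.{u}} (U : X.Opens) (g : Y ⟶ X) (h : ∀ y : Y, g y ∈ U) :
    liftS U g h ≫ U.ι = g := IsOpenImmersion.lift_fac _ _ _

/-- a morphism to `T` whose image lies in the open `U` factors through `U` -/
noncomputable def liftOpen (T : Over S) (U : T.left.Opens) {Y : Over S} (g : Y ⟶ T)
    (h : ∀ y : Y.left, g.left y ∈ U) : Y ⟶ overOpen T U :=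
  Over.homMk (V := overOpen T U) (liftS U g.left h) (by
    change liftS U g.left h ≫ U.ι ≫ T.hom = Y.hom
    rw [liftS_ι_assoc]
    exact Over.w g)

lemma liftOpen_ι (T : Over S) (U : T.left.Opens) {Y : Over S} (g : Y ⟶ T)
    (h : ∀ y : Y.left, g.left y ∈ U) : liftOpen T U g h ≫ overOpenι T U = g := by
  apply Over.OverMorphism.ext
  exact liftS_ι U g.left h

lemma eq_of_comp_ι (T : Over S) (U : T.left.Opens) {Y : Over S} (a b : Y ⟶ overOpen T U)
    (h : a ≫ overOpenι T U = b ≫ overOpenι T U) : a = b := by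
  apply Over.OverMorphism.ext
  have h1 : a.left ≫ U.ι = b.left ≫ U.ι := congrArg (fun f => f.left) h
  exact (cancel_mono U.ι).1 h1

lemma overOpenLE_ι (T : Over S) {U V : T.left.Opens} (h : U ≤ V) :
    overOpenLE T h ≫ overOpenι T V = overOpenι T U := by
  apply Over.OverMorphism.ext
  exact Scheme.homOfLE_ι _ h

lemma overOpenι_mem (T : Over S) (U : T.left.Opens) (y : (overOpen T U).left) :
    (overOpenι T U).left y ∈ U := y.2

lemma comp_left_apply {X Y Z : Over S} (f : X ⟶ Y) (g : Y ⟶ Z) (x : X.left) :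
    (f ≫ g).left x = g.left (f.left x) := by
  rw [Over.comp_left]; rfl

variable (F : (Over S)ᵒᵖ ⥤ Type (u + 1))

lemma map_comp_apply {X Y Z : Over S} (f : X ⟶ Y) (g : Y ⟶ Z) (η : F.obj (op Z)) :
    F.map (f ≫ g).op η = F.map f.op (F.map g.op η) := by
  rw [op_comp, F.map_comp]; rfl

variable {F}

/-- relative separatedness -/
theorem sep' (hF : IsZariskiSheaf₂ F) (T : Over S) (W : T.left.Opens) {κ : Type u}
    (V : κ → T.left.Opens) (hVW : ∀ k, V k ≤ W) (hW : W ≤ ⨆ k, V k)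
    (θ θ' : F.obj (op (overOpen T W)))
    (h : ∀ k, F.map (overOpenLE T (hVW k)).op θ = F.map (overOpenLE T (hVW k)).op θ') :
    θ = θ' := by
  refine hF.sep (overOpen T W) (fun k => (overOpenι T W).left ⁻¹ᵁ V k) ?_ θ θ' ?_
  · rw [eq_top_iff]
    intro x _
    have hx : (overOpenι T W).left x ∈ ⨆ k, V k := hW (overOpenι_mem T W x)
    rw [TopologicalSpace.Opens.mem_iSup] at hx ⊢
    exact hx
  · intro k
    have hm : ∀ y : (overOpen (overOpen T W) ((overOpenι T W).left ⁻¹ᵁ V k)).left,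
        (overOpenι (overOpen T W) ((overOpenι T W).left ⁻¹ᵁ V k) ≫ overOpenι T W).left y ∈ V k := by
      intro y
      rw [comp_left_apply]
      exact overOpenι_mem (overOpen T W) _ y
    have e : overOpenι (overOpen T W) ((overOpenι T W).left ⁻¹ᵁ V k) =
        liftOpen T (V k) _ hm ≫ overOpenLE T (hVW k) := by
      apply eq_of_comp_ι
      rw [Category.assoc, overOpenLE_ι, liftOpen_ι]
    rw [e, map_comp_apply, map_comp_apply, h k]

/-- `W ∩ V` as an open of `W` maps to `V` -/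
noncomputable def down (T : Over S) (W V : T.left.Opens) :
    overOpen (overOpen T W) ((overOpenι T W).left ⁻¹ᵁ V) ⟶ overOpen T V :=
  liftOpen T V (overOpenι (overOpen T W) ((overOpenι T W).left ⁻¹ᵁ V) ≫ overOpenι T W) (by
    intro y
    rw [comp_left_apply]
    exact overOpenι_mem (overOpen T W) _ y)

lemma down_ι (T : Over S) (W V : T.left.Opens) :
    down T W V ≫ overOpenι T V =
      overOpenι (overOpen T W) ((overOpenι T W).left ⁻¹ᵁ V) ≫ overOpenι T W :=
  liftOpen_ι _ _ _ _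

lemma overOpenLE_apply_mem (T : Over S) {V W : T.left.Opens} (h : V ≤ W)
    (y : (overOpen T V).left) : (overOpenι T W).left ((overOpenLE T h).left y) ∈ V := by
  rw [← comp_left_apply, overOpenLE_ι]
  exact overOpenι_mem T V y

/-- for `V ≤ W`: `V` maps to `W ∩ V` as an open of `W` -/
noncomputable def up (T : Over S) {W V : T.left.Opens} (h : V ≤ W) :
    overOpen T V ⟶ overOpen (overOpen T W) ((overOpenι T W).left ⁻¹ᵁ V) :=
  liftOpen (overOpen T W) _ (overOpenLE T h) (fun y => overOpenLE_apply_mem T h y)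

lemma up_ι (T : Over S) {W V : T.left.Opens} (h : V ≤ W) :
    up T h ≫ overOpenι (overOpen T W) ((overOpenι T W).left ⁻¹ᵁ V) = overOpenLE T h :=
  liftOpen_ι _ _ _ _

lemma up_down (T : Over S) {W V : T.left.Opens} (h : V ≤ W) : up T h ≫ down T W V = 𝟙 _ := by
  apply eq_of_comp_ι
  rw [Category.assoc, down_ι, ← Category.assoc, up_ι, overOpenLE_ι, Category.id_comp]

/-- sections agreeing on `W₁ ⊓ W₂` have the same pull back along any map into both opens -/
theorem map_eq_of_compat (T : Over S) (W₁ W₂ : T.left.Opens)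
    (θ₁ : F.obj (op (overOpen T W₁))) (θ₂ : F.obj (op (overOpen T W₂)))
    (h : F.map (overOpenLE T (inf_le_left : W₁ ⊓ W₂ ≤ W₁)).op θ₁ =
      F.map (overOpenLE T (inf_le_right : W₁ ⊓ W₂ ≤ W₂)).op θ₂)
    {Y : Over S} (a₁ : Y ⟶ overOpen T W₁) (a₂ : Y ⟶ overOpen T W₂)
    (ha : a₁ ≫ overOpenι T W₁ = a₂ ≫ overOpenι T W₂) : F.map a₁.op θ₁ = F.map a₂.op θ₂ := by
  have hm : ∀ y : Y.left, (a₁ ≫ overOpenι T W₁).left y ∈ W₁ ⊓ W₂ := by
    intro y
    refine ⟨?_, ?_⟩
    · rw [comp_left_apply]; exact overOpenι_mem T W₁ _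
    · rw [ha, comp_left_apply]; exact overOpenι_mem T W₂ _
  have e1 : a₁ = liftOpen T (W₁ ⊓ W₂) _ hm ≫ overOpenLE T inf_le_left := by
    apply eq_of_comp_ι
    rw [Category.assoc, overOpenLE_ι, liftOpen_ι]
  have e2 : a₂ = liftOpen T (W₁ ⊓ W₂) _ hm ≫ overOpenLE T inf_le_right := by
    apply eq_of_comp_ι
    rw [Category.assoc, overOpenLE_ι, liftOpen_ι, ha]
  rw [e1, map_comp_apply, h, ← map_comp_apply, ← e2]

/-- relative gluing for two opens -/
theorem glue₂' (hF : IsZariskiSheaf₂ F) (T : Over S) (W₁ W₂ : T.left.Opens)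
    (θ₁ : F.obj (op (overOpen T W₁))) (θ₂ : F.obj (op (overOpen T W₂)))
    (h : F.map (overOpenLE T (inf_le_left : W₁ ⊓ W₂ ≤ W₁)).op θ₁ =
      F.map (overOpenLE T (inf_le_right : W₁ ⊓ W₂ ≤ W₂)).op θ₂) :
    ∃ θ : F.obj (op (overOpen T (W₁ ⊔ W₂))),
      F.map (overOpenLE T (le_sup_left : W₁ ≤ W₁ ⊔ W₂)).op θ = θ₁ ∧
      F.map (overOpenLE T (le_sup_right : W₂ ≤ W₁ ⊔ W₂)).op θ = θ₂ := by
  obtain ⟨θ, h1, h2⟩ := hF.glue₂ (overOpen T (W₁ ⊔ W₂))
    ((overOpenι T (W₁ ⊔ W₂)).left ⁻¹ᵁ W₁) ((overOpenι T (W₁ ⊔ W₂)).left ⁻¹ᵁ W₂) (by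
      rw [eq_top_iff]
      intro x _
      have hx : (overOpenι T (W₁ ⊔ W₂)).left x ∈ W₁ ⊔ W₂ := overOpenι_mem T _ x
      exact hx)
    (F.map (down T (W₁ ⊔ W₂) W₁).op θ₁) (F.map (down T (W₁ ⊔ W₂) W₂).op θ₂) (by
      rw [← map_comp_apply, ← map_comp_apply]
      apply map_eq_of_compat T W₁ W₂ θ₁ θ₂ h
      rw [Category.assoc, Category.assoc, down_ι, down_ι, ← Category.assoc, ← Category.assoc,
        overOpenLE_ι, overOpenLE_ι])
  refine ⟨θ, ?_, ?_⟩
  · rw [← up_ι T (le_sup_left : W₁ ≤ W₁ ⊔ W₂), map_comp_apply, h1, ← map_comp_apply, up_down]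
    simp
  · rw [← up_ι T (le_sup_right : W₂ ≤ W₁ ⊔ W₂), map_comp_apply, h2, ← map_comp_apply, up_down]
    simp

lemma overOpenLE_comp (T : Over S) {U V W : T.left.Opens} (h : U ≤ V) (h' : V ≤ W) :
    overOpenLE T h ≫ overOpenLE T h' = overOpenLE T (h.trans h') := by
  apply eq_of_comp_ι
  rw [Category.assoc, overOpenLE_ι, overOpenLE_ι, overOpenLE_ι]

lemma map_LE_LE (T : Over S) {U V W : T.left.Opens} (h : U ≤ V) (h' : V ≤ W)
    (θ : F.obj (op (overOpen T W))) :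
    F.map (overOpenLE T h).op (F.map (overOpenLE T h').op θ) =
      F.map (overOpenLE T (h.trans h')).op θ := by
  rw [← map_comp_apply, overOpenLE_comp]

section glue

variable (T : Over S) {A : Type u} (U : A → T.left.Opens)
  (η : ∀ α, F.obj (op (overOpen T (U α))))

/-- `θ` is "the glued section" on `W` -/
def IsGlued (W : T.left.Opens) (θ : F.obj (op (overOpen T W))) : Prop :=
  ∀ α, F.map (overOpenLE T (inf_le_left : W ⊓ U α ≤ W)).op θ =
    F.map (overOpenLE T (inf_le_right : W ⊓ U α ≤ U α)).op (η α)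

variable {T U η}

/-- glued sections are local -/
theorem IsGlued.of_cover (hF : IsZariskiSheaf₂ F) {W : T.left.Opens}
    {θ : F.obj (op (overOpen T W))} {κ : Type u} (V : κ → T.left.Opens) (hVW : ∀ k, V k ≤ W)
    (hW : W ≤ ⨆ k, V k) (h : ∀ k, IsGlued T U η (V k) (F.map (overOpenLE T (hVW k)).op θ)) :
    IsGlued T U η W θ := by
  intro α
  refine sep' hF T (W ⊓ U α) (fun k => V k ⊓ U α) (fun k => inf_le_inf_right _ (hVW k)) ?_ _ _ ?_
  · intro x hx
    have h1 := hW hx.1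
    rw [TopologicalSpace.Opens.mem_iSup] at h1 ⊢
    obtain ⟨k, hk⟩ := h1
    exact ⟨k, hk, hx.2⟩
  · intro k
    have h2 := h k α
    rw [map_LE_LE] at h2
    rw [map_LE_LE, map_LE_LE]
    exact h2

theorem IsGlued.compat (hF : IsZariskiSheaf₂ F) (hU : ⨆ α, U α = ⊤) {W W' : T.left.Opens}
    {θ : F.obj (op (overOpen T W))} {θ' : F.obj (op (overOpen T W'))}
    (h : IsGlued T U η W θ) (h' : IsGlued T U η W' θ') :
    F.map (overOpenLE T (inf_le_left : W ⊓ W' ≤ W)).op θ =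
      F.map (overOpenLE T (inf_le_right : W ⊓ W' ≤ W')).op θ' := by
  refine sep' hF T (W ⊓ W') (fun α => W ⊓ W' ⊓ U α) (fun α => inf_le_left) ?_ _ _ ?_
  · intro x hx
    have h1 : x ∈ ⨆ α, U α := by rw [hU]; trivial
    rw [TopologicalSpace.Opens.mem_iSup] at h1 ⊢
    obtain ⟨α, hα⟩ := h1
    exact ⟨α, hx, hα⟩
  · intro α
    rw [map_LE_LE, map_LE_LE]
    have e1 := map_eq_of_compat T W (U α) θ (η α) (h α)
      (overOpenLE T ((inf_le_left : W ⊓ W' ⊓ U α ≤ W ⊓ W').trans inf_le_left))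
      (overOpenLE T (inf_le_right : W ⊓ W' ⊓ U α ≤ U α)) (by rw [overOpenLE_ι, overOpenLE_ι])
    have e2 := map_eq_of_compat T W' (U α) θ' (η α) (h' α)
      (overOpenLE T ((inf_le_left : W ⊓ W' ⊓ U α ≤ W ⊓ W').trans inf_le_right))
      (overOpenLE T (inf_le_right : W ⊓ W' ⊓ U α ≤ U α)) (by rw [overOpenLE_ι, overOpenLE_ι])
    rw [e1, e2]

theorem IsGlued.map_eq (hF : IsZariskiSheaf₂ F) (hU : ⨆ α, U α = ⊤) {W W' : T.left.Opens}
    {θ : F.obj (op (overOpen T W))} {θ' : F.obj (op (overOpen T W'))}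
    (h : IsGlued T U η W θ) (h' : IsGlued T U η W' θ') {Y : Over S}
    (a : Y ⟶ overOpen T W) (a' : Y ⟶ overOpen T W')
    (ha : a ≫ overOpenι T W = a' ≫ overOpenι T W') : F.map a.op θ = F.map a'.op θ' :=
  map_eq_of_compat T W W' θ θ' (h.compat hF hU h') a a' ha

/-- restriction of a glued section -/
theorem IsGlued.of_le {W W' : T.left.Opens} {θ : F.obj (op (overOpen T W))}
    (h : IsGlued T U η W θ) (hW : W' ≤ W) :
    IsGlued T U η W' (F.map (overOpenLE T hW).op θ) := by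
  intro α
  rw [map_LE_LE]
  exact map_eq_of_compat T W (U α) θ (η α) (h α) _ _ (by rw [overOpenLE_ι, overOpenLE_ι])

/-- the given sections are glued -/
theorem isGlued_of_le (hη : ∀ α β, F.map (overOpenLE T (inf_le_left : U α ⊓ U β ≤ U α)).op (η α) =
      F.map (overOpenLE T (inf_le_right : U α ⊓ U β ≤ U β)).op (η β))
    {W : T.left.Opens} {α : A} (hW : W ≤ U α) :
    IsGlued T U η W (F.map (overOpenLE T hW).op (η α)) := by
  intro β
  rw [map_LE_LE]
  exact map_eq_of_compat T (U α) (U β) (η α) (η β) (hη α β) _ _ (by rw [overOpenLE_ι, overOpenLE_ι])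

variable (T U η) in
/-- `W` carries a glued section -/
def Good (W : T.left.Opens) : Prop := ∃ θ : F.obj (op (overOpen T W)), IsGlued T U η W θ

theorem Good.sup (hF : IsZariskiSheaf₂ F) (hU : ⨆ α, U α = ⊤) {W W' : T.left.Opens}
    (h : Good T U η W) (h' : Good T U η W') : Good T U η (W ⊔ W') := by
  obtain ⟨θ, hθ⟩ := h
  obtain ⟨θ', hθ'⟩ := h'
  obtain ⟨θ₀, h1, h2⟩ := glue₂' hF T W W' θ θ' (hθ.compat hF hU hθ')
  refine ⟨θ₀, IsGlued.of_cover hF (fun b : ULift.{u} Bool => if b.down then W else W') ?_ ?_ ?_⟩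
  · rintro ⟨b⟩
    cases b
    · exact le_sup_right
    · exact le_sup_left
  · refine sup_le ?_ ?_
    · exact le_iSup (fun b : ULift.{u} Bool => if b.down then W else W') ⟨true⟩
    · exact le_iSup (fun b : ULift.{u} Bool => if b.down then W else W') ⟨false⟩
  · rintro ⟨b⟩
    cases b
    · change IsGlued T U η W' (F.map (overOpenLE T le_sup_right).op θ₀)
      rw [h2]; exact hθ'
    · change IsGlued T U η W (F.map (overOpenLE T le_sup_left).op θ₀)
      rw [h1]; exact hθ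

theorem Good.finset_sup (hF : IsZariskiSheaf₂ F) (hU : ⨆ α, U α = ⊤) {ι : Type*}
    (W : ι → T.left.Opens) (h : ∀ i, Good T U η (W i)) (s : Finset ι) (hs : s.Nonempty) :
    Good T U η (s.sup W) := by
  induction hs using Finset.Nonempty.cons_induction with
  | singleton a => rw [Finset.sup_singleton]; exact h a
  | cons a s ha hs ih => rw [Finset.sup_cons]; exact (h a).sup hF hU ih

/-- the conclusion -/
theorem Good.exists_glue (h : Good T U η ⊤) :
    ∃ η₀ : F.obj (op T), ∀ α, F.map (overOpenι T (U α)).op η₀ = η α := by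
  obtain ⟨θ, hθ⟩ := h
  refine ⟨F.map (liftOpen T ⊤ (𝟙 T) (fun _ => trivial)).op θ, fun α => ?_⟩
  rw [← map_comp_apply]
  have e := map_eq_of_compat T ⊤ (U α) θ (η α) (hθ α)
    (overOpenι T (U α) ≫ liftOpen T ⊤ (𝟙 T) (fun _ => trivial)) (𝟙 _)
    (by rw [Category.assoc, liftOpen_ι, Category.comp_id, Category.id_comp])
  rw [e]
  simp

end glue

/-- `inj` for arbitrary test schemes -/
theorem inj' (𝔄 : AffineAtlas F) (i : 𝔄.ι) {Y : Over S} (a b : Y ⟶ 𝔄.X i)
    (h : F.map a.op (𝔄.ξ i) = F.map b.op (𝔄.ξ i)) : a = b := by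
  apply Over.OverMorphism.ext
  refine Y.left.affineOpenCover.openCover.hom_ext _ _ fun j => ?_
  have h1 := 𝔄.inj i (Y.left.affineOpenCover.X j) (Y.left.affineOpenCover.f j ≫ Y.hom)
    (overPre Y (Y.left.affineOpenCover.f j) ≫ a) (overPre Y (Y.left.affineOpenCover.f j) ≫ b)
    (by rw [map_comp_apply, map_comp_apply, h])
  exact congrArg (fun f => f.left) h1

section chart

variable {T : Over S} {A : Type u} {U : A → T.left.Opens}
  {η : ∀ α, F.obj (op (overOpen T (U α)))}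

variable (T U η) in
/-- `W` carries a glued section coming from the chart `i` -/
def InChart (𝔄 : AffineAtlas F) (i : 𝔄.ι) (W : T.left.Opens) : Prop :=
  ∃ a : overOpen T W ⟶ 𝔄.X i, IsGlued T U η W (F.map a.op (𝔄.ξ i))

/-- the union of all opens in the chart `i` is in the chart `i` -/
theorem inChart_iSup (hF : IsZariskiSheaf₂ F) (hU : ⨆ α, U α = ⊤) (𝔄 : AffineAtlas F) (i : 𝔄.ι) :
    InChart T U η 𝔄 i (⨆ W : {W : T.left.Opens // InChart T U η 𝔄 i W}, W.1) := by
  set K := {W : T.left.Opens // InChart T U η 𝔄 i W} with hK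
  let a : ∀ k : K, overOpen T k.1 ⟶ 𝔄.X i := fun k => k.2.choose
  have ha : ∀ k : K, IsGlued T U η k.1 (F.map (a k).op (𝔄.ξ i)) := fun k => k.2.choose_spec
  let 𝒰 := Scheme.Opens.iSupOpenCover (fun k : K => k.1)
  have hfι : ∀ k : K, 𝒰.f k ≫ (⨆ k : K, k.1).ι = k.1.ι :=
    fun k => Scheme.homOfLE_ι _ (le_iSup (fun k : K => k.1) k)
  have hcompat : ∀ k l : K, pullback.fst (𝒰.f k) (𝒰.f l) ≫ (a k).left =
      pullback.snd (𝒰.f k) (𝒰.f l) ≫ (a l).left := by
    intro k l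
    have hw : pullback.fst (𝒰.f k) (𝒰.f l) ≫ k.1.ι = pullback.snd (𝒰.f k) (𝒰.f l) ≫ l.1.ι := by
      rw [← hfι k, ← hfι l, ← Category.assoc, ← Category.assoc, pullback.condition]
    let P : Over S := Over.mk (pullback.fst (𝒰.f k) (𝒰.f l) ≫ k.1.ι ≫ T.hom)
    let p₁ : P ⟶ overOpen T k.1 := Over.homMk (V := overOpen T k.1) (pullback.fst (𝒰.f k) (𝒰.f l)) rfl
    let p₂ : P ⟶ overOpen T l.1 := Over.homMk (V := overOpen T l.1) (pullback.snd (𝒰.f k) (𝒰.f l)) (by
      change pullback.snd (𝒰.f k) (𝒰.f l) ≫ l.1.ι ≫ T.hom = pullback.fst (𝒰.f k) (𝒰.f l) ≫ k.1.ι ≫ T.hom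
      rw [← Category.assoc, ← hw, Category.assoc])
    have hp : p₁ ≫ overOpenι T k.1 = p₂ ≫ overOpenι T l.1 := by
      apply Over.OverMorphism.ext
      exact hw
    have h3 := inj' 𝔄 i (p₁ ≫ a k) (p₂ ≫ a l) (by
      rw [map_comp_apply, map_comp_apply]
      exact (ha k).map_eq hF hU (ha l) p₁ p₂ hp)
    exact congrArg (fun f => f.left) h3
  let g : (⨆ k : K, k.1).toScheme ⟶ (𝔄.X i).left :=
    𝒰.glueMorphisms (fun k => (a k).left) hcompat
  have hg : ∀ k : K, 𝒰.f k ≫ g = (a k).left := fun k => 𝒰.ι_glueMorphisms _ hcompat k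
  let a₀ : overOpen T (⨆ k : K, k.1) ⟶ 𝔄.X i := Over.homMk (U := overOpen T (⨆ k : K, k.1)) g (by
    change g ≫ (𝔄.X i).hom = (⨆ k : K, k.1).ι ≫ T.hom
    refine 𝒰.hom_ext _ _ fun k => ?_
    rw [← Category.assoc, hg k, ← Category.assoc, hfι k]
    exact Over.w (a k))
  have ha₀ : ∀ k : K, overOpenLE T (le_iSup (fun k : K => k.1) k) ≫ a₀ = a k := by
    intro k
    apply Over.OverMorphism.ext
    exact hg k
  refine ⟨a₀, IsGlued.of_cover hF (fun k : K => k.1) (fun k => le_iSup (fun k : K => k.1) k) le_rfl ?_⟩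
  intro k
  rw [← map_comp_apply, ha₀ k]
  exact ha k

/-- every point has a neighbourhood in some chart -/
theorem exists_inChart
    (hη : ∀ α β, F.map (overOpenLE T (inf_le_left : U α ⊓ U β ≤ U α)).op (η α) =
      F.map (overOpenLE T (inf_le_right : U α ⊓ U β ≤ U β)).op (η β))
    (hU : ⨆ α, U α = ⊤) (𝔄 : AffineAtlas F) (x : T.left) :
    ∃ (i : 𝔄.ι) (W : T.left.Opens), x ∈ W ∧ InChart T U η 𝔄 i W := by
  have hx : x ∈ ⨆ α, U α := by rw [hU]; trivial
  obtain ⟨α, hα⟩ := TopologicalSpace.Opens.mem_iSup.1 hx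
  obtain ⟨R, φ, hφ, ⟨y, rfl⟩, hφU⟩ := Scheme.exists_affine_mem_range_and_range_subset hα
  let t : Spec R ⟶ S := φ ≫ T.hom
  let g₀ : Over.mk t ⟶ T := overPre T φ
  have hg₀ : ∀ z : (Over.mk t).left, g₀.left z ∈ U α := fun z => hφU ⟨z, rfl⟩
  let ηV : F.obj (op (Over.mk t)) := F.map (liftOpen T (U α) g₀ hg₀).op (η α)
  let fK : Spec (CommRingCat.of ((Spec R).residueField y)) ⟶ Spec R :=
    (Spec R).fromSpecResidueField y
  obtain ⟨i, a, ha⟩ := 𝔄.cover ((Spec R).residueField y) (fK ≫ t)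
    (F.map (overPre (Over.mk t) fK).op ηV)
  obtain ⟨U', hU'⟩ := 𝔄.isOpen i R t ηV
  have hy : y ∈ U' := by
    have h1 := (hU' _ fK).1 ⟨a, ha⟩
    apply h1
    have h2 : y ∈ Set.range ((Spec R).fromSpecResidueField y) := by
      rw [Scheme.range_fromSpecResidueField]; rfl
    exact h2
  obtain ⟨R', φ', hφ', ⟨y', hy'⟩, hφ'U⟩ := Scheme.exists_affine_mem_range_and_range_subset hy
  obtain ⟨a', ha'⟩ := (hU' R' φ').2 hφ'U
  let W : T.left.Opens := (φ' ≫ φ).opensRange
  have hWU : W ≤ U α := by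
    rintro _ ⟨z, rfl⟩
    exact hφU ⟨φ' z, rfl⟩
  have hlift : Set.range W.ι ⊆ Set.range (φ' ≫ φ) := by
    rw [Scheme.Opens.range_ι]; rfl
  let m : overOpen T W ⟶ Over.mk (φ' ≫ t) :=
    Over.homMk (U := overOpen T W) (V := Over.mk (φ' ≫ t))
      (IsOpenImmersion.lift (φ' ≫ φ) W.ι hlift) (by
        change IsOpenImmersion.lift (φ' ≫ φ) W.ι hlift ≫ φ' ≫ φ ≫ T.hom = W.ι ≫ T.hom
        rw [← Category.assoc φ', IsOpenImmersion.lift_fac_assoc])
  refine ⟨i, W, ⟨y', by rw [← hy']; rfl⟩, m ≫ a', ?_⟩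
  have e : m ≫ overPre (Over.mk t) φ' ≫ liftOpen T (U α) g₀ hg₀ = overOpenLE T hWU := by
    apply eq_of_comp_ι
    rw [Category.assoc, Category.assoc, liftOpen_ι, overOpenLE_ι]
    apply Over.OverMorphism.ext
    change IsOpenImmersion.lift (φ' ≫ φ) W.ι hlift ≫ φ' ≫ φ = W.ι
    exact IsOpenImmersion.lift_fac _ _ _
  have e2 : F.map (m ≫ a').op (𝔄.ξ i) = F.map (overOpenLE T hWU).op (η α) := by
    rw [map_comp_apply, ha', ← e, map_comp_apply, map_comp_apply]
  rw [e2]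
  exact isGlued_of_le hη hWU

end chart

end FiniteSheaf

open FiniteSheaf in
/-- **R1**.  separatedness + gluing for two opens + a FINITE (nonempty) atlas ⇒ Zariski sheaf. -/
theorem isZariskiSheaf_of_finite_affineAtlas (F : (Over S)ᵒᵖ ⥤ Type (u + 1))
    (hF : IsZariskiSheaf₂ F) (𝔄 : AffineAtlas F) [Finite 𝔄.ι] [Nonempty 𝔄.ι] :
    IsZariskiSheaf F where
  sep := hF.sep
  glue := by
    intro T A U hU η hη
    classical
    have := Fintype.ofFinite 𝔄.ι
    let Ti : 𝔄.ι → T.left.Opens := fun i => ⨆ W : {W : T.left.Opens // InChart T U η 𝔄 i W}, W.1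
    have hgood : ∀ i, Good T U η (Ti i) := fun i => by
      obtain ⟨a, ha⟩ := inChart_iSup (T := T) (U := U) (η := η) hF hU 𝔄 i
      exact ⟨_, ha⟩
    have htop : Finset.univ.sup Ti = ⊤ := by
      rw [eq_top_iff]
      intro x _
      obtain ⟨i, W, hxW, hW⟩ := exists_inChart hη hU 𝔄 x
      have h1 : W ≤ Ti i :=
        le_iSup (fun W : {W : T.left.Opens // InChart T U η 𝔄 i W} => W.1) ⟨W, hW⟩
      exact (Finset.le_sup (f := Ti) (Finset.mem_univ i)) (h1 hxW)
    have h2 := Good.finset_sup hF hU Ti hgood Finset.univ Finset.univ_nonempty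
    rw [htop] at h2
    exact h2.exists_glue

end Fermat.Agent.S25
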