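import Fermat.Agent.S25.R.Atlas

/-!
# S25 / layer R : the gluing datum of an atlas
-/

set_option autoImplicit false

universe u

open CategoryTheory Limits AlgebraicGeometry Opposite

namespace Fermat.Agent.S25.R

variable {S : Scheme.{u}}

namespace Atlas

variable {F : (Over S)ᵒᵖ ⥤ Type (u + 1)} (𝔄 : Atlas F)

theorem V_self (i : 𝔄.ι) : 𝔄.V i i = ⊤ := by
  have h := (𝔄.mem_L i (𝔄.X i) (𝔄.ξ i) (𝔄.X i) (𝟙 _)).1 ⟨𝟙 _, rfl⟩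
  rw [eq_top_iff]
  intro x _
  exact h ⟨x, by simp⟩

theorem range_a_subset (i j : 𝔄.ι) :
    Set.range (𝔄.a i j).left.base ⊆ (𝔄.V j i : Set (𝔄.X j).left) :=
  (𝔄.mem_L i (𝔄.X j) (𝔄.ξ j) _ (𝔄.a i j)).1 ⟨𝔄.f i j, (𝔄.map_a i j).symm⟩

/-- the transition map `V i j ⟶ V j i` -/
noncomputable def t (i j : 𝔄.ι) : 𝔄.VV i j ⟶ 𝔄.VV j i :=
  overLift (𝔄.X j) (𝔄.V j i) (𝔄.a i j) (𝔄.range_a_subset i j)

@[reassoc (attr := simp)]
theorem t_f (i j : 𝔄.ι) : 𝔄.t i j ≫ 𝔄.f j i = 𝔄.a i j := overLift_ι _ _ _ _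

theorem a_self (i : 𝔄.ι) : 𝔄.a i i = 𝔄.f i i :=
  𝔄.inj i _ _ _ (𝔄.map_a i i)

theorem t_self (i : 𝔄.ι) : 𝔄.t i i = 𝟙 _ := by
  rw [← cancel_mono (𝔄.f i i), t_f, a_self, Category.id_comp]

theorem range_fst_a_subset (i j k : 𝔄.ι) :
    Set.range (pullback.fst (𝔄.f i j) (𝔄.f i k) ≫ 𝔄.a i j).left.base ⊆
      (𝔄.V j k : Set (𝔄.X j).left) := by
  refine (𝔄.mem_L k (𝔄.X j) (𝔄.ξ j) _ _).1 ⟨pullback.snd (𝔄.f i j) (𝔄.f i k) ≫ 𝔄.a i k, ?_⟩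
  rw [map_comp_apply, map_comp_apply, map_a, map_a, ← map_comp_apply, ← map_comp_apply,
    pullback.condition]

/-- the transition map on triple overlaps -/
noncomputable def t' (i j k : 𝔄.ι) :
    pullback (𝔄.f i j) (𝔄.f i k) ⟶ pullback (𝔄.f j k) (𝔄.f j i) :=
  pullback.lift
    (overLift (𝔄.X j) (𝔄.V j k) (pullback.fst (𝔄.f i j) (𝔄.f i k) ≫ 𝔄.a i j)
      (𝔄.range_fst_a_subset i j k))
    (pullback.fst (𝔄.f i j) (𝔄.f i k) ≫ 𝔄.t i j) (by simp)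

theorem t'_fst_f (i j k : 𝔄.ι) :
    𝔄.t' i j k ≫ pullback.fst (𝔄.f j k) (𝔄.f j i) ≫ 𝔄.f j k =
      pullback.fst (𝔄.f i j) (𝔄.f i k) ≫ 𝔄.a i j := by
  rw [t', pullback.lift_fst_assoc, overLift_ι]

/-- the restriction of `ξ i` to the triple overlap -/
noncomputable def θ (i j k : 𝔄.ι) : F.obj (op (pullback (𝔄.f i j) (𝔄.f i k))) :=
  F.map (pullback.fst (𝔄.f i j) (𝔄.f i k) ≫ 𝔄.f i j).op (𝔄.ξ i)

theorem map_t'_θ (i j k : 𝔄.ι) : F.map (𝔄.t' i j k).op (𝔄.θ j k i) = 𝔄.θ i j k := by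
  rw [θ, θ, ← map_comp_apply, t'_fst_f, map_comp_apply, map_a, ← map_comp_apply]

theorem cocycle (i j k : 𝔄.ι) : 𝔄.t' i j k ≫ 𝔄.t' j k i ≫ 𝔄.t' k i j = 𝟙 _ := by
  rw [← cancel_mono (pullback.fst (𝔄.f i j) (𝔄.f i k) ≫ 𝔄.f i j)]
  apply 𝔄.inj i
  rw [Category.id_comp, map_comp_apply, map_comp_apply, map_comp_apply]
  change F.map (𝔄.t' i j k).op (F.map (𝔄.t' j k i).op (F.map (𝔄.t' k i j).op (𝔄.θ i j k))) =
    𝔄.θ i j k
  rw [map_t'_θ, map_t'_θ, map_t'_θ]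

/-- the gluing datum in `Over S` -/
noncomputable def overGlueData : CategoryTheory.GlueData (Over S) where
  J := 𝔄.ι
  U := 𝔄.X
  V ij := 𝔄.VV ij.1 ij.2
  f i j := 𝔄.f i j
  f_mono _ _ := inferInstance
  f_hasPullback _ _ _ := inferInstance
  f_id i := isIso_overOpenι_top _ (𝔄.V_self i)
  t i j := 𝔄.t i j
  t_id i := 𝔄.t_self i
  t' i j k := 𝔄.t' i j k
  t_fac i j k := pullback.lift_snd _ _ _
  cocycle i j k := 𝔄.cocycle i j k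

/-- the gluing datum of schemes -/
noncomputable def glueData : Scheme.GlueData.{u} where
  toGlueData := 𝔄.overGlueData.mapGlueData (Over.forget S)
  f_open i j := inferInstanceAs (IsOpenImmersion (overOpenι (𝔄.X i) (𝔄.V i j)).left)

end Atlas

end Fermat.Agent.S25.R
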