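import Fermat.Agent.S25.R.Glue

/-!
# S25 / layer R : the glued scheme of an atlas, as an object of `Over S`
-/

set_option autoImplicit false

universe u

open CategoryTheory Limits AlgebraicGeometry Opposite

namespace Fermat.Agent.S25.R

variable {S : Scheme.{u}}

namespace Atlas

variable {F : (Over S)ᵒᵖ ⥤ Type (u + 1)} (𝔄 : Atlas F)

/-- The structure morphism of the glued scheme. -/
theorem exists_glued_hom :
    ∃ h : 𝔄.glueData.glued ⟶ S, ∀ i : 𝔄.ι, 𝔄.glueData.ι i ≫ h = (𝔄.X i).hom := by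
  refine ⟨Multicoequalizer.desc 𝔄.glueData.diagram S (fun i => (𝔄.X i).hom) ?_, fun i => ?_⟩
  · rintro ⟨i, j⟩
    change (𝔄.f i j).left ≫ (𝔄.X i).hom = ((𝔄.t i j).left ≫ (𝔄.f j i).left) ≫ (𝔄.X j).hom
    rw [Category.assoc, Over.w, Over.w, Over.w]
  · exact Multicoequalizer.π_desc _ _ _ _ _

/-- the glued scheme, over `S` -/
noncomputable def J : Over S := Over.mk 𝔄.exists_glued_hom.choose

/-- the charts of the glued scheme -/
noncomputable def j (i : 𝔄.ι) : 𝔄.X i ⟶ 𝔄.J :=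
  Over.homMk (𝔄.glueData.ι i) (𝔄.exists_glued_hom.choose_spec i)

instance isOpenImmersion_j (i : 𝔄.ι) : IsOpenImmersion (𝔄.j i).left :=
  Scheme.GlueData.ι_isOpenImmersion 𝔄.glueData i

theorem isOpenCover_j : IsOpenCover 𝔄.j := by
  refine ⟨fun i => inferInstance, fun p => ?_⟩
  obtain ⟨i, x, hx⟩ := 𝔄.glueData.ι_jointly_surjective p
  exact ⟨i, x, hx⟩

theorem a_j (i j : 𝔄.ι) : 𝔄.a i j ≫ 𝔄.j j = 𝔄.f i j ≫ 𝔄.j i := by
  rw [← t_f, Category.assoc]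
  ext1
  exact 𝔄.glueData.glue_condition i j

/-- **KP**: two points of charts with the same class have the same image in `J`. -/
theorem comp_j_eq {T : Over S} {i j : 𝔄.ι} (a : T ⟶ 𝔄.X i) (b : T ⟶ 𝔄.X j)
    (h : F.map a.op (𝔄.ξ i) = F.map b.op (𝔄.ξ j)) : a ≫ 𝔄.j i = b ≫ 𝔄.j j := by
  have hr : Set.range a.left.base ⊆ (𝔄.V i j : Set (𝔄.X i).left) :=
    (𝔄.mem_L j (𝔄.X i) (𝔄.ξ i) T a).1 ⟨b, h.symm⟩
  have ha : overLift _ _ a hr ≫ 𝔄.f i j = a := overLift_ι _ _ _ _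
  have hb : b = overLift _ _ a hr ≫ 𝔄.a i j := by
    apply 𝔄.inj j
    rw [map_comp_apply, map_a, ← map_comp_apply, ha, h]
  rw [hb, Category.assoc, a_j, ← Category.assoc, ha]

/-- **KP'**: two points of charts with the same image in `J` have the same class. -/
theorem map_eq_of_comp_j_eq {T : Over S} {i j : 𝔄.ι} (a : T ⟶ 𝔄.X i) (b : T ⟶ 𝔄.X j)
    (h : a ≫ 𝔄.j i = b ≫ 𝔄.j j) : F.map a.op (𝔄.ξ i) = F.map b.op (𝔄.ξ j) := by
  have h' : a.left ≫ 𝔄.glueData.ι i = b.left ≫ 𝔄.glueData.ι j := congrArg (·.left) h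
  let φ : T.left ⟶ (𝔄.VV i j).left :=
    (𝔄.glueData.vPullbackConeIsLimit i j).lift (PullbackCone.mk a.left b.left h')
  have h1 : φ ≫ (𝔄.f i j).left = a.left :=
    (𝔄.glueData.vPullbackConeIsLimit i j).fac (PullbackCone.mk a.left b.left h')
      WalkingCospan.left
  have h2 : φ ≫ (𝔄.t i j).left ≫ (𝔄.f j i).left = b.left :=
    (𝔄.glueData.vPullbackConeIsLimit i j).fac (PullbackCone.mk a.left b.left h')
      WalkingCospan.right
  let ψ : T ⟶ 𝔄.VV i j := Over.homMk φ (by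
    rw [← Over.w (𝔄.f i j), ← Category.assoc, h1, Over.w])
  have e1 : ψ ≫ 𝔄.f i j = a := by ext1; exact h1
  have e2 : ψ ≫ 𝔄.a i j = b := by rw [← t_f]; ext1; exact h2
  rw [← e1, ← e2, map_comp_apply, map_comp_apply, map_a]

/-- the universal class -/
theorem exists_ζ (hF : IsZariskiSheaf F) :
    ∃ ζ : F.obj (op 𝔄.J), ∀ i, F.map (𝔄.j i).op ζ = 𝔄.ξ i :=
  𝔄.isOpenCover_j.glue hF 𝔄.ξ fun _ _ _ a b h => 𝔄.map_eq_of_comp_j_eq a b h

end Atlas

end Fermat.Agent.S25.R
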