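import Fermat.Agent.S25.R.GroupExt

/-!
# S25 / layer R : extending a natural group structure from affine schemes to all schemes (M3c)
-/

set_option autoImplicit false

universe u

open CategoryTheory Limits AlgebraicGeometry Opposite

namespace Fermat.Agent.S25.R

variable {S : Scheme.{u}} {F : (Over S)ᵒᵖ ⥤ Type (u + 1)}

section

variable (G : ∀ (R : CommRingCat.{u}) (t : Spec R ⟶ S), CommGroup (F.obj (op (Over.mk t))))
    (hG : ∀ (R R' : CommRingCat.{u}) (t : Spec R ⟶ S) (f : Spec R' ⟶ Spec R)
      (a b : F.obj (op (Over.mk t))),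
      F.map (overPre (Over.mk t) f).op (a * b) =
        F.map (overPre (Over.mk t) f).op a * F.map (overPre (Over.mk t) f).op b)

include hG in
/-- naturality for arbitrary morphisms of `Over S` between affine objects -/
theorem map_mul_affine (R R' : CommRingCat.{u}) (t : Spec R ⟶ S) (t' : Spec R' ⟶ S)
    (φ : Over.mk t' ⟶ Over.mk t) (a b : F.obj (op (Over.mk t))) :
    F.map φ.op (a * b) = F.map φ.op a * F.map φ.op b := by
  obtain ⟨l, hl⟩ : ∃ l : Spec R' ⟶ Spec R, l = φ.left := ⟨_, rfl⟩
  have ht : l ≫ t = t' := by
    rw [hl]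
    exact Over.w φ
  subst ht
  have hφ : φ = overPre (Over.mk t) l := by
    ext
    exact hl.symm
  rw [hφ]
  exact hG R R' t l a b

/-- the pullback as a monoid homomorphism -/
noncomputable def mapHomAffine
    (hG : ∀ (R R' : CommRingCat.{u}) (t : Spec R ⟶ S) (f : Spec R' ⟶ Spec R)
      (a b : F.obj (op (Over.mk t))),
      F.map (overPre (Over.mk t) f).op (a * b) =
        F.map (overPre (Over.mk t) f).op a * F.map (overPre (Over.mk t) f).op b)
    (R R' : CommRingCat.{u}) (t : Spec R ⟶ S) (t' : Spec R' ⟶ S)
    (φ : Over.mk t' ⟶ Over.mk t) : F.obj (op (Over.mk t)) →* F.obj (op (Over.mk t')) :=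
  MonoidHom.mk' (fun a => F.map φ.op a) (map_mul_affine G hG R R' t t' φ)

include hG in
theorem map_one_affine (R R' : CommRingCat.{u}) (t : Spec R ⟶ S) (t' : Spec R' ⟶ S)
    (φ : Over.mk t' ⟶ Over.mk t) : F.map φ.op (1 : F.obj (op (Over.mk t))) = 1 :=
  (mapHomAffine G hG R R' t t' φ).map_one

include hG in
theorem map_inv_affine (R R' : CommRingCat.{u}) (t : Spec R ⟶ S) (t' : Spec R' ⟶ S)
    (φ : Over.mk t' ⟶ Over.mk t) (a : F.obj (op (Over.mk t))) :
    F.map φ.op a⁻¹ = (F.map φ.op a)⁻¹ :=
  (mapHomAffine G hG R R' t t' φ).map_inv a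

omit G in
/-- moving a pullback through a morphism of affine objects over `T` -/
theorem map_map_overPre (T : Over S) (R R' : CommRingCat.{u}) (f : Spec R ⟶ T.left)
    (f' : Spec R' ⟶ T.left) (g : Over.mk (f' ≫ T.hom) ⟶ Over.mk (f ≫ T.hom))
    (hg : g.left ≫ f = f') (a : F.obj (op T)) :
    F.map g.op (F.map (overPre T f).op a) = F.map (overPre T f').op a := by
  have h : g ≫ overPre T f = overPre T f' := by
    ext
    exact hg
  rw [← map_comp_apply, h]

omit G in
/-- a property of affine objects over `T` may be checked on the `overPre T f` -/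
theorem forall_over_of_overPre {T : Over S}
    (P : ∀ (R : CommRingCat.{u}) (t : Spec R ⟶ S) (_ : Over.mk t ⟶ T), Prop)
    (h : ∀ (R : CommRingCat.{u}) (f : Spec R ⟶ T.left), P R (f ≫ T.hom) (overPre T f))
    (R : CommRingCat.{u}) (t : Spec R ⟶ S) (φ : Over.mk t ⟶ T) : P R t φ := by
  obtain ⟨l, hl⟩ : ∃ l : Spec R ⟶ T.left, l = φ.left := ⟨_, rfl⟩
  have ht : l ≫ T.hom = t := by
    rw [hl]
    exact Over.w φ
  subst ht
  have hφ : φ = overPre T l := by
    ext
    exact hl.symm
  rw [hφ]
  exact h R l

include hG in
theorem exists_mul (hF : IsZariskiSheaf F) (T : Over S) (a b : F.obj (op T)) :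
    ∃ m : F.obj (op T), ∀ (R : CommRingCat.{u}) (f : Spec R ⟶ T.left),
      F.map (overPre T f).op m = F.map (overPre T f).op a * F.map (overPre T f).op b := by
  refine exists_of_affine_family hF T
    (fun R f => F.map (overPre T f).op a * F.map (overPre T f).op b) ?_
  intro R R' f f' g hg
  rw [map_mul_affine G hG, map_map_overPre T R R' f f' g hg, map_map_overPre T R R' f f' g hg]

include hG in
theorem exists_one (hF : IsZariskiSheaf F) (T : Over S) :
    ∃ m : F.obj (op T), ∀ (R : CommRingCat.{u}) (f : Spec R ⟶ T.left),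
      F.map (overPre T f).op m = 1 := by
  refine exists_of_affine_family hF T (fun R f => 1) ?_
  intro R R' f f' g _
  exact map_one_affine G hG _ _ _ _ g

include hG in
theorem exists_inv (hF : IsZariskiSheaf F) (T : Over S) (a : F.obj (op T)) :
    ∃ m : F.obj (op T), ∀ (R : CommRingCat.{u}) (f : Spec R ⟶ T.left),
      F.map (overPre T f).op m = (F.map (overPre T f).op a)⁻¹ := by
  refine exists_of_affine_family hF T (fun R f => (F.map (overPre T f).op a)⁻¹) ?_
  intro R R' f f' g hg
  rw [map_inv_affine G hG, map_map_overPre T R R' f f' g hg]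

end

theorem exists_commGroup_of_affine (F : (Over S)ᵒᵖ ⥤ Type (u + 1)) (hF : IsZariskiSheaf F)
    (G : ∀ (R : CommRingCat.{u}) (t : Spec R ⟶ S), CommGroup (F.obj (op (Over.mk t))))
    (hG : ∀ (R R' : CommRingCat.{u}) (t : Spec R ⟶ S) (f : Spec R' ⟶ Spec R)
      (a b : F.obj (op (Over.mk t))),
      F.map (overPre (Over.mk t) f).op (a * b) =
        F.map (overPre (Over.mk t) f).op a * F.map (overPre (Over.mk t) f).op b) :
    ∃ G' : ∀ T : Over S, CommGroup (F.obj (op T)),
      (∀ (T T' : Over S) (f : T' ⟶ T) (a b : F.obj (op T)),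
        F.map f.op (a * b) = F.map f.op a * F.map f.op b) ∧
      ∀ (R : CommRingCat.{u}) (t : Spec R ⟶ S), G' (Over.mk t) = G R t := by
  choose mul hmul using fun T a b => exists_mul G hG hF T a b
  choose one hone using fun T => exists_one G hG hF T
  choose inv hinv using fun T a => exists_inv G hG hF T a
  have hmul' : ∀ (T : Over S) (a b : F.obj (op T)) (R : CommRingCat.{u}) (t : Spec R ⟶ S)
      (φ : Over.mk t ⟶ T), F.map φ.op (mul T a b) = F.map φ.op a * F.map φ.op b := by
    intro T a b
    exact forall_over_of_overPre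
      (fun R t φ => F.map φ.op (mul T a b) = F.map φ.op a * F.map φ.op b) (hmul T a b)
  let G' : ∀ T : Over S, CommGroup (F.obj (op T)) := fun T =>
    { mul := mul T
      one := one T
      inv := inv T
      mul_assoc := fun a b c => by
        refine ext_affine hF T _ _ fun R f => ?_
        change F.map (overPre T f).op (mul T (mul T a b) c) =
          F.map (overPre T f).op (mul T a (mul T b c))
        rw [hmul, hmul, hmul, hmul, mul_assoc]
      one_mul := fun a => by
        refine ext_affine hF T _ _ fun R f => ?_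
        change F.map (overPre T f).op (mul T (one T) a) = F.map (overPre T f).op a
        rw [hmul, hone, one_mul]
      mul_one := fun a => by
        refine ext_affine hF T _ _ fun R f => ?_
        change F.map (overPre T f).op (mul T a (one T)) = F.map (overPre T f).op a
        rw [hmul, hone, mul_one]
      inv_mul_cancel := fun a => by
        refine ext_affine hF T _ _ fun R f => ?_
        change F.map (overPre T f).op (mul T (inv T a) a) = F.map (overPre T f).op (one T)
        rw [hmul, hinv, hone, inv_mul_cancel]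
      mul_comm := fun a b => by
        refine ext_affine hF T _ _ fun R f => ?_
        change F.map (overPre T f).op (mul T a b) = F.map (overPre T f).op (mul T b a)
        rw [hmul, hmul, mul_comm] }
  refine ⟨G', ?_, ?_⟩
  · intro T T' f a b
    refine ext_affine hF T' _ _ fun R g => ?_
    change F.map (overPre T' g).op (F.map f.op (mul T a b)) =
      F.map (overPre T' g).op (mul T' (F.map f.op a) (F.map f.op b))
    rw [hmul, ← map_comp_apply, ← map_comp_apply, ← map_comp_apply, hmul']
  · intro R t
    apply CommGroup.ext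
    funext a b
    change mul (Over.mk t) a b = _
    have h := hmul' (Over.mk t) a b R t (𝟙 _)
    rwa [map_id_apply, map_id_apply, map_id_apply] at h

end Fermat.Agent.S25.R
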