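import Fermat.Agent.S25.R.Sheaf

/-!
# S25 / layer R : a Zariski sheaf is determined by its values on affine schemes
-/

set_option autoImplicit false

universe u

open CategoryTheory Limits AlgebraicGeometry Opposite

namespace Fermat.Agent.S25.R

variable {S : Scheme.{u}} {F : (Over S)ᵒᵖ ⥤ Type (u + 1)}

/-- Two classes which agree on all affine schemes over `T` are equal. -/
theorem ext_affine (hF : IsZariskiSheaf F) (T : Over S) (η η' : F.obj (op T))
    (h : ∀ (R : CommRingCat.{u}) (f : Spec R ⟶ T.left),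
      F.map (overPre T f).op η = F.map (overPre T f).op η') : η = η' := by
  obtain ⟨ι, R, f, hf⟩ := exists_affine_isOpenCover T
  exact hf.sep hF η η' (fun i => h (R i) (f i))

/-- the two pullbacks of a natural family to an affine scheme agree -/
theorem affine_family_key (T : Over S)
    (m : ∀ (R : CommRingCat.{u}) (f : Spec R ⟶ T.left), F.obj (op (Over.mk (f ≫ T.hom))))
    (hm : ∀ (R R' : CommRingCat.{u}) (f : Spec R ⟶ T.left) (f' : Spec R' ⟶ T.left)
      (g : Over.mk (f' ≫ T.hom) ⟶ Over.mk (f ≫ T.hom)), g.left ≫ f = f' →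
        F.map g.op (m R f) = m R' f')
    {R' R₁ R₂ : CommRingCat.{u}} (t' : Spec R' ⟶ S) (f₁ : Spec R₁ ⟶ T.left)
    (f₂ : Spec R₂ ⟶ T.left) (g₁ : Over.mk t' ⟶ Over.mk (f₁ ≫ T.hom))
    (g₂ : Over.mk t' ⟶ Over.mk (f₂ ≫ T.hom)) (h : g₁ ≫ overPre T f₁ = g₂ ≫ overPre T f₂) :
    F.map g₁.op (m R₁ f₁) = F.map g₂.op (m R₂ f₂) := by
  have ht : (g₁.left ≫ f₁) ≫ T.hom = t' := by
    have := Over.w g₁
    simpa using this
  have h' : g₁.left ≫ f₁ = g₂.left ≫ f₂ := congrArg CommaMorphism.left h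
  obtain ⟨l, hl⟩ : ∃ l : Spec R' ⟶ T.left, l = g₁.left ≫ f₁ := ⟨_, rfl⟩
  rw [← hl] at ht
  have ht2 : l ≫ T.hom = t' := ht
  clear ht
  subst ht2
  rw [hm R₁ R' f₁ l g₁ hl.symm, hm R₂ R' f₂ l g₂ (h'.symm.trans hl.symm)]

/-- the two pullbacks of a natural family to an arbitrary scheme agree -/
theorem affine_family_key' (hF : IsZariskiSheaf F) (T : Over S)
    (m : ∀ (R : CommRingCat.{u}) (f : Spec R ⟶ T.left), F.obj (op (Over.mk (f ≫ T.hom))))
    (hm : ∀ (R R' : CommRingCat.{u}) (f : Spec R ⟶ T.left) (f' : Spec R' ⟶ T.left)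
      (g : Over.mk (f' ≫ T.hom) ⟶ Over.mk (f ≫ T.hom)), g.left ≫ f = f' →
        F.map g.op (m R f) = m R' f')
    {R₁ R₂ : CommRingCat.{u}} (Z : Over S) (f₁ : Spec R₁ ⟶ T.left)
    (f₂ : Spec R₂ ⟶ T.left) (g₁ : Z ⟶ Over.mk (f₁ ≫ T.hom))
    (g₂ : Z ⟶ Over.mk (f₂ ≫ T.hom)) (h : g₁ ≫ overPre T f₁ = g₂ ≫ overPre T f₂) :
    F.map g₁.op (m R₁ f₁) = F.map g₂.op (m R₂ f₂) := by
  refine ext_affine hF Z _ _ fun R'' g => ?_
  rw [← map_comp_apply, ← map_comp_apply]
  apply affine_family_key T m hm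
  rw [Category.assoc, Category.assoc, h]

/-- A natural family of classes on the affine schemes over `T` comes from a class on `T`. -/
theorem exists_of_affine_family (hF : IsZariskiSheaf F) (T : Over S)
    (m : ∀ (R : CommRingCat.{u}) (f : Spec R ⟶ T.left), F.obj (op (Over.mk (f ≫ T.hom))))
    (hm : ∀ (R R' : CommRingCat.{u}) (f : Spec R ⟶ T.left) (f' : Spec R' ⟶ T.left)
      (g : Over.mk (f' ≫ T.hom) ⟶ Over.mk (f ≫ T.hom)), g.left ≫ f = f' →
        F.map g.op (m R f) = m R' f') :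
    ∃ η : F.obj (op T), ∀ (R : CommRingCat.{u}) (f : Spec R ⟶ T.left),
      F.map (overPre T f).op η = m R f := by
  obtain ⟨ι, R, f, hf⟩ := exists_affine_isOpenCover T
  obtain ⟨η, hη⟩ := hf.glue hF (fun i => m (R i) (f i))
    (fun i j Z a b hab => affine_family_key' hF T m hm Z (f i) (f j) a b hab)
  refine ⟨η, fun R' f' => ?_⟩
  obtain ⟨U, g', hU, hg'⟩ := hf.exists_pullback (overPre T f')
  refine hF.sep _ U hU _ _ fun i => ?_
  rw [← map_comp_apply, ← hg' i, map_comp_apply, hη]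
  exact affine_family_key' hF T m hm _ (f i) f' (g' i) _ (hg' i)

end Fermat.Agent.S25.R
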