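import Fermat.Agent.S25.R.Sep

/-!
# S25 / layer R : from an affine-tested atlas to loci on all schemes

`InChart i η` : the class `η ∈ F(T)` is pulled back from the chart `i`.
`locus i T η` : the set of points `p` of `T` such that `η|_{Spec κ(p)}` is in the chart `i`.
-/

set_option autoImplicit false

universe u

open CategoryTheory Limits AlgebraicGeometry Opposite

namespace Fermat.Agent.S25.R

variable {S : Scheme.{u}} {F : (Over S)ᵒᵖ ⥤ Type (u + 1)} (𝔄 : AffineAtlas F)

/-- `η` is pulled back from the chart `i`. -/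
def InChart (i : 𝔄.ι) {T : Over S} (η : F.obj (op T)) : Prop :=
  ∃ a : T ⟶ 𝔄.X i, F.map a.op (𝔄.ξ i) = η

variable {𝔄}

theorem InChart.map {i : 𝔄.ι} {T T' : Over S} {η : F.obj (op T)} (h : InChart 𝔄 i η)
    (f : T' ⟶ T) : InChart 𝔄 i (F.map f.op η) := by
  obtain ⟨a, rfl⟩ := h
  exact ⟨f ≫ a, map_comp_apply F f a _⟩

theorem InChart.of_iso {i : 𝔄.ι} {T T' : Over S} {η : F.obj (op T)} (e : T' ≅ T)
    (h : InChart 𝔄 i (F.map e.hom.op η)) : InChart 𝔄 i η := by
  have := h.map e.inv
  rwa [← map_comp_apply, e.inv_hom_id, map_id_apply] at this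

theorem InChart.of_isIso {i : 𝔄.ι} {T T' : Over S} {η : F.obj (op T)} (f : T' ⟶ T) [IsIso f]
    (h : InChart 𝔄 i (F.map f.op η)) : InChart 𝔄 i η :=
  InChart.of_iso (asIso f) h

theorem isIso_of_isIso_left {T T' : Over S} (f : T' ⟶ T) [IsIso f.left] : IsIso f :=
  have : IsIso ((Over.forget S).map f) := ‹IsIso f.left›
  isIso_of_reflects_iso f (Over.forget S)

instance isIso_overPre {T' : Scheme.{u}} (T : Over S) (f : T' ⟶ T.left) [IsIso f] :
    IsIso (overPre T f) :=
  have : IsIso (overPre T f).left := ‹IsIso f›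
  isIso_of_isIso_left _

variable (𝔄)

/-- the point `Spec κ(p) ⟶ T`, in `Over S` -/
noncomputable abbrev pt (T : Over S) (p : T.left) : Over S :=
  Over.mk (T.left.fromSpecResidueField p ≫ T.hom)

/-- the point `Spec κ(p) ⟶ T`, in `Over S` -/
noncomputable abbrev ptι (T : Over S) (p : T.left) : pt T p ⟶ T :=
  overPre T (T.left.fromSpecResidueField p)

/-- the set of points of `T` at which `η` is in the chart `i` -/
def locus (i : 𝔄.ι) (T : Over S) (η : F.obj (op T)) : Set T.left :=
  {p | InChart 𝔄 i (F.map (ptι T p).op η)}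

/-- **I(a)** injectivity of the charts on all schemes. -/
theorem inj_general (i : 𝔄.ι) (T : Over S) (a b : T ⟶ 𝔄.X i)
    (h : F.map a.op (𝔄.ξ i) = F.map b.op (𝔄.ξ i)) : a = b := by
  obtain ⟨ι, R, f, hf⟩ := exists_affine_isOpenCover T
  refine hf.hom_ext a b fun x => ?_
  refine 𝔄.inj i (R x) (f x ≫ T.hom) _ _ ?_
  rw [map_comp_apply, map_comp_apply, h]

/-- the affine case at `f = 𝟙`. -/
theorem inChart_of_forall_mem (i : 𝔄.ι) (R : CommRingCat.{u}) (t : Spec R ⟶ S)
    (η : F.obj (op (Over.mk t))) (U : (Spec R).Opens)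
    (hU : ∀ (R' : CommRingCat.{u}) (f : Spec R' ⟶ Spec R),
        (∃ a : Over.mk (f ≫ t) ⟶ 𝔄.X i,
          F.map a.op (𝔄.ξ i) = F.map (overPre (Over.mk t) f).op η) ↔
            Set.range f.base ⊆ (U : Set (Spec R)))
    (h : ∀ p : Spec R, p ∈ U) : InChart 𝔄 i η :=
  InChart.of_isIso (overPre (Over.mk t) (𝟙 (Spec R))) ((hU R (𝟙 _)).2 fun p _ => h p)

/-- **Lemma A** (descent along "field extensions"), `overPre` form. -/
theorem inChart_of_subsingleton (i : 𝔄.ι) (R R' : CommRingCat.{u}) [Subsingleton (Spec R)]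
    [Nonempty (Spec R')] (t : Spec R ⟶ S) (φ : Spec R' ⟶ Spec R) (η : F.obj (op (Over.mk t)))
    (h : InChart 𝔄 i (F.map (overPre (Over.mk t) φ).op η)) : InChart 𝔄 i η := by
  obtain ⟨U, hU⟩ := 𝔄.isOpen i R t η
  have h1 := (hU R' φ).1 h
  obtain ⟨x⟩ := ‹Nonempty (Spec R')›
  refine inChart_of_forall_mem 𝔄 i R t η U hU fun p => ?_
  rw [Subsingleton.elim p (φ.base x)]
  exact h1 ⟨x, rfl⟩

/-- **Lemma A** (descent along "field extensions"), general form. -/
theorem inChart_of_subsingleton' (i : 𝔄.ι) (R R' : CommRingCat.{u}) [Subsingleton (Spec R)]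
    [Nonempty (Spec R')] (t : Spec R ⟶ S) (t' : Spec R' ⟶ S) (r : Over.mk t' ⟶ Over.mk t)
    (η : F.obj (op (Over.mk t))) (h : InChart 𝔄 i (F.map r.op η)) : InChart 𝔄 i η := by
  refine inChart_of_subsingleton 𝔄 i R R' t r.left η ?_
  let e : Over.mk (r.left ≫ t) ⟶ Over.mk t' := Over.homMk (𝟙 _) (by simpa using (Over.w r).symm)
  have he : overPre (Over.mk t) r.left = e ≫ r := by
    ext1
    simp [e, overPre]
  rw [he, map_comp_apply]
  exact h.map e

/-- **Lemma A** (descent along field extensions). -/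
theorem inChart_of_field (i : 𝔄.ι) (K K' : Type u) [Field K] [Field K']
    (t : Spec (CommRingCat.of K) ⟶ S) (φ : Spec (CommRingCat.of K') ⟶ Spec (CommRingCat.of K))
    (η : F.obj (op (Over.mk t)))
    (h : InChart 𝔄 i (F.map (overPre (Over.mk t) φ).op η)) : InChart 𝔄 i η :=
  have : Subsingleton (Spec (CommRingCat.of K)) := inferInstanceAs (Subsingleton (PrimeSpectrum K))
  have : Nonempty (Spec (CommRingCat.of K')) := inferInstanceAs (Nonempty (PrimeSpectrum K'))
  inChart_of_subsingleton 𝔄 i _ _ t φ η h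

instance subsingleton_spec_residueField (X : Scheme.{u}) (p : X) :
    Subsingleton (Spec (X.residueField p)) :=
  inferInstanceAs (Subsingleton (PrimeSpectrum (X.residueField p)))

instance nonempty_spec_residueField (X : Scheme.{u}) (p : X) :
    Nonempty (Spec (X.residueField p)) :=
  inferInstanceAs (Nonempty (PrimeSpectrum (X.residueField p)))

/-- the map `Spec κ(p) ⟶ Spec κ(f p)`, in `Over S` -/
noncomputable def ptMap {T T' : Over S} (f : T' ⟶ T) (p : T'.left) :
    pt T' p ⟶ pt T (f.left.base p) :=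
  Over.homMk (Spec.map (f.left.residueFieldMap p)) (by
    have := Scheme.Hom.SpecMap_residueFieldMap_fromSpecResidueField f.left p
    simp only [Over.mk_left, Over.mk_hom]
    rw [reassoc_of% this, Over.w f])

theorem ptMap_ptι {T T' : Over S} (f : T' ⟶ T) (p : T'.left) :
    ptMap f p ≫ ptι T (f.left.base p) = ptι T' p ≫ f := by
  ext1
  exact Scheme.Hom.SpecMap_residueFieldMap_fromSpecResidueField f.left p

/-- **Lemma B** (the locus commutes with pullback). -/
theorem mem_locus_map_iff (i : 𝔄.ι) {T T' : Over S} (f : T' ⟶ T) (η : F.obj (op T))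
    (p : T'.left) : p ∈ locus 𝔄 i T' (F.map f.op η) ↔ f.left.base p ∈ locus 𝔄 i T η := by
  have key : F.map (ptι T' p).op (F.map f.op η) =
      F.map (ptMap f p).op (F.map (ptι T (f.left.base p)).op η) := by
    rw [← map_comp_apply, ← map_comp_apply, ptMap_ptι]
  constructor
  · intro h
    change InChart 𝔄 i _ at h
    rw [key] at h
    exact inChart_of_subsingleton' 𝔄 i _ _ _ _ (ptMap f p) _ h
  · intro h
    change InChart 𝔄 i _
    rw [key]
    exact InChart.map h _

end Fermat.Agent.S25.R
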