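import Fermat.Agent.S25.R.Locus

/-!
# S25 / layer R : the locus of a chart is open and has the expected universal property
-/

set_option autoImplicit false

universe u

open CategoryTheory Limits AlgebraicGeometry Opposite

namespace Fermat.Agent.S25.R

variable {S : Scheme.{u}} {F : (Over S)ᵒᵖ ⥤ Type (u + 1)} (𝔄 : AffineAtlas F)

/-- **Lemma C1** (affine case: the locus is the open set given by the atlas). -/
theorem locus_affine (i : 𝔄.ι) (R : CommRingCat.{u}) (t : Spec R ⟶ S)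
    (η : F.obj (op (Over.mk t))) (U : (Spec R).Opens)
    (hU : ∀ (R' : CommRingCat.{u}) (f : Spec R' ⟶ Spec R),
        (∃ a : Over.mk (f ≫ t) ⟶ 𝔄.X i,
          F.map a.op (𝔄.ξ i) = F.map (overPre (Over.mk t) f).op η) ↔
            Set.range f.base ⊆ (U : Set (Spec R))) :
    locus 𝔄 i (Over.mk t) η = (U : Set (Spec R)) := by
  ext p
  have h1 := hU ((Spec R).residueField p) ((Spec R).fromSpecResidueField p)
  have h2 : Set.range ((Spec R).fromSpecResidueField p).base = {p} :=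
    Scheme.range_fromSpecResidueField p
  rw [h2, Set.singleton_subset_iff] at h1
  exact h1

/-- **Lemma C2**. -/
theorem isOpen_locus_affine (i : 𝔄.ι) (R : CommRingCat.{u}) (t : Spec R ⟶ S)
    (η : F.obj (op (Over.mk t))) : IsOpen (locus 𝔄 i (Over.mk t) η) := by
  obtain ⟨U, hU⟩ := 𝔄.isOpen i R t η
  rw [locus_affine 𝔄 i R t η U hU]
  exact U.isOpen

/-- **Lemma C3**. -/
theorem inChart_affine_of_locus (i : 𝔄.ι) (R : CommRingCat.{u}) (t : Spec R ⟶ S)
    (η : F.obj (op (Over.mk t))) (h : locus 𝔄 i (Over.mk t) η = Set.univ) : InChart 𝔄 i η := by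
  obtain ⟨U, hU⟩ := 𝔄.isOpen i R t η
  rw [locus_affine 𝔄 i R t η U hU] at h
  exact inChart_of_forall_mem 𝔄 i R t η U hU fun p => by
    have : p ∈ (U : Set (Spec R)) := h ▸ Set.mem_univ p
    exact this

/-- **Lemma D** (the locus is open). -/
theorem isOpen_locus (i : 𝔄.ι) (T : Over S) (η : F.obj (op T)) : IsOpen (locus 𝔄 i T η) := by
  obtain ⟨ι, R, f, hf⟩ := exists_affine_isOpenCover T
  rw [isOpen_iff_forall_mem_open]
  intro p hp
  obtain ⟨x, q, rfl⟩ := hf.cover p
  have := hf.isOpenImmersion x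
  refine ⟨(overPre T (f x)).left.base '' locus 𝔄 i _ (F.map (overPre T (f x)).op η), ?_, ?_,
    ⟨q, (mem_locus_map_iff 𝔄 i _ η q).2 hp, rfl⟩⟩
  · rintro _ ⟨q', hq', rfl⟩
    exact (mem_locus_map_iff 𝔄 i _ η q').1 hq'
  · exact (overPre T (f x)).left.isOpenEmbedding.isOpenMap _
      (isOpen_locus_affine 𝔄 i (R x) (f x ≫ T.hom) _)

/-- **Lemma E** (if the locus is everything, `η` comes from the chart). -/
theorem inChart_of_locus (hF : IsSep F) (i : 𝔄.ι) (T : Over S) (η : F.obj (op T))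
    (h : locus 𝔄 i T η = Set.univ) : InChart 𝔄 i η := by
  obtain ⟨ι, R, f, hf⟩ := exists_affine_isOpenCover T
  have h1 : ∀ x, InChart 𝔄 i (F.map (overPre T (f x)).op η) := fun x =>
    inChart_affine_of_locus 𝔄 i (R x) (f x ≫ T.hom) _ (Set.eq_univ_of_forall fun q =>
      (mem_locus_map_iff 𝔄 i _ η q).2 (h ▸ Set.mem_univ _))
  choose a ha using h1
  obtain ⟨g, hg⟩ := hf.exists_glueHom a fun x y Z α β hαβ => by
    refine inj_general 𝔄 i Z _ _ ?_
    rw [map_comp_apply, map_comp_apply, ha, ha, ← map_comp_apply, ← map_comp_apply, hαβ]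
  refine ⟨g, hf.sep_of_isSep hF _ _ fun x => ?_⟩
  rw [← map_comp_apply, hg, ha]

/-- **Lemma F** (the loci cover). -/
theorem exists_mem_locus (T : Over S) (η : F.obj (op T)) (p : T.left) :
    ∃ i, p ∈ locus 𝔄 i T η := by
  obtain ⟨i, a, ha⟩ := 𝔄.cover (T.left.residueField p) (T.left.fromSpecResidueField p ≫ T.hom)
    (F.map (ptι T p).op η)
  exact ⟨i, a, ha⟩

/-- the characterisation of the locus -/
theorem inChart_map_iff (hF : IsSep F) (i : 𝔄.ι) (T : Over S) (η : F.obj (op T))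
    (T' : Over S) (f : T' ⟶ T) :
    InChart 𝔄 i (F.map f.op η) ↔ Set.range f.left.base ⊆ locus 𝔄 i T η := by
  constructor
  · rintro h _ ⟨p, rfl⟩
    exact (mem_locus_map_iff 𝔄 i f η p).1 (h.map _)
  · intro h
    refine inChart_of_locus 𝔄 hF i T' _ (Set.eq_univ_of_forall fun p => ?_)
    exact (mem_locus_map_iff 𝔄 i f η p).2 (h ⟨p, rfl⟩)

end Fermat.Agent.S25.R
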