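import Fermat.Agent.S25.R.Glued

/-!
# S25 / layer R : the glued scheme represents the sheaf
-/

set_option autoImplicit false

universe u

open CategoryTheory Limits AlgebraicGeometry Opposite

namespace Fermat.Agent.S25.R

variable {S : Scheme.{u}}

namespace Atlas

variable {F : (Over S)ᵒᵖ ⥤ Type (u + 1)} (𝔄 : Atlas F)

theorem exists_classifying (hF : IsZariskiSheaf F) (ζ : F.obj (op 𝔄.J))
    (hζ : ∀ i, F.map (𝔄.j i).op ζ = 𝔄.ξ i) (T : Over S) (η : F.obj (op T)) :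
    ∃ g : T ⟶ 𝔄.J, F.map g.op ζ = η := by
  have hc := isOpenCover_overOpenι T (fun i => 𝔄.L i T η) (𝔄.cover T η)
  obtain ⟨g, hg⟩ := hc.exists_glueHom (fun i => 𝔄.χ i T η ≫ 𝔄.j i) fun i i' Z a b hab => by
    rw [← Category.assoc, ← Category.assoc]
    refine 𝔄.comp_j_eq _ _ ?_
    rw [map_comp_apply, map_comp_apply, map_χ, map_χ, ← map_comp_apply, ← map_comp_apply, hab]
  refine ⟨g, hc.sep hF _ _ fun i => ?_⟩
  rw [← map_comp_apply, hg, map_comp_apply, hζ, map_χ]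

theorem classifying_unique (ζ : F.obj (op 𝔄.J))
    (hζ : ∀ i, F.map (𝔄.j i).op ζ = 𝔄.ξ i) (T : Over S) (g g' : T ⟶ 𝔄.J)
    (h : F.map g.op ζ = F.map g'.op ζ) : g = g' := by
  obtain ⟨U, a, hU, ha⟩ := 𝔄.isOpenCover_j.exists_pullback g
  obtain ⟨U', a', hU', ha'⟩ := 𝔄.isOpenCover_j.exists_pullback g'
  have hc := isOpenCover_overOpenι T (fun x : 𝔄.ι × 𝔄.ι => U x.1 ⊓ U' x.2) (by
    refine top_le_iff.1 fun p _ => ?_
    obtain ⟨i, hi⟩ := TopologicalSpace.Opens.mem_iSup.1 (hU ▸ TopologicalSpace.Opens.mem_top p)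
    obtain ⟨i', hi'⟩ := TopologicalSpace.Opens.mem_iSup.1 (hU' ▸ TopologicalSpace.Opens.mem_top p)
    exact TopologicalSpace.Opens.mem_iSup.2 ⟨(i, i'), hi, hi'⟩)
  refine hc.hom_ext g g' fun x => ?_
  have e1 : overOpenι T (U x.1 ⊓ U' x.2) ≫ g =
      (overOpenLE T (inf_le_left : U x.1 ⊓ U' x.2 ≤ U x.1) ≫ a x.1) ≫ 𝔄.j x.1 := by
    rw [Category.assoc, ha, ← Category.assoc, overOpenLE_ι]
  have e2 : overOpenι T (U x.1 ⊓ U' x.2) ≫ g' =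
      (overOpenLE T (inf_le_right : U x.1 ⊓ U' x.2 ≤ U' x.2) ≫ a' x.2) ≫ 𝔄.j x.2 := by
    rw [Category.assoc, ha', ← Category.assoc, overOpenLE_ι]
  rw [e1, e2]
  refine 𝔄.comp_j_eq _ _ ?_
  rw [← hζ x.1, ← hζ x.2, ← map_comp_apply, ← map_comp_apply, ← e1, ← e2, map_comp_apply,
    map_comp_apply, h]

theorem exists_isUniversal (hF : IsZariskiSheaf F) :
    ∃ (J : Over S) (ζ : F.obj (op J)), IsUniversal F J ζ ∧
      ∃ j : ∀ i, 𝔄.X i ⟶ J, (∀ i, IsOpenImmersion (j i).left) ∧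
        (∀ i, F.map (j i).op ζ = 𝔄.ξ i) ∧ ∀ p : J.left, ∃ i, p ∈ Set.range (j i).left.base := by
  obtain ⟨ζ, hζ⟩ := 𝔄.exists_ζ hF
  refine ⟨𝔄.J, ζ, fun T η => ?_, 𝔄.j, fun i => inferInstance, hζ, 𝔄.isOpenCover_j.cover⟩
  obtain ⟨g, hg⟩ := 𝔄.exists_classifying hF ζ hζ T η
  exact ⟨g, hg, fun g' hg' => 𝔄.classifying_unique ζ hζ T g' g (hg'.trans hg.symm)⟩

end Atlas

end Fermat.Agent.S25.R
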