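import Fermat.Agent.S25.R.LocusOpen
import Fermat.Agent.S25.R.Univ

/-!
# S25 / layer R : representability from an affine-tested atlas (assembly)
-/

set_option autoImplicit false

universe u

open CategoryTheory Limits AlgebraicGeometry Opposite

namespace Fermat.Agent.S25.R

variable {S : Scheme.{u}} {F : (Over S)ᵒᵖ ⥤ Type (u + 1)}

/-- An affine-tested atlas of a Zariski sheaf is an atlas. -/
noncomputable def toAtlas (hF : IsZariskiSheaf F) (𝔄 : AffineAtlas F) : Atlas F where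
  ι := 𝔄.ι
  X := 𝔄.X
  ξ := 𝔄.ξ
  inj := inj_general 𝔄
  L i T η := ⟨locus 𝔄 i T η, isOpen_locus 𝔄 i T η⟩
  mem_L i T η T' f := inChart_map_iff 𝔄 (isSep_of_isZariskiSheaf hF) i T η T' f
  cover T η := by
    refine top_le_iff.1 fun p _ => ?_
    obtain ⟨i, hi⟩ := exists_mem_locus 𝔄 T η p
    exact TopologicalSpace.Opens.mem_iSup.2 ⟨i, hi⟩

theorem exists_isUniversal_of_affineAtlas (F : (Over S)ᵒᵖ ⥤ Type (u + 1)) (hF : IsZariskiSheaf F)
    (𝔄 : AffineAtlas F) :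
    ∃ (J : Over S) (ζ : F.obj (op J)), IsUniversal F J ζ ∧
      ∃ j : ∀ i, 𝔄.X i ⟶ J, (∀ i, IsOpenImmersion (j i).left) ∧
        (∀ i, F.map (j i).op ζ = 𝔄.ξ i) ∧ ∀ p : J.left, ∃ i, p ∈ Set.range (j i).left.base :=
  (toAtlas hF 𝔄).exists_isUniversal hF

end Fermat.Agent.S25.R
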