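import Fermat.Agent.S25.R.AbsDefs

/-!
# S25 / layer R / R2-T0 : morphisms of schemes glue along a cover by open subschemes (`Opens` form)

Pure Mathlib.  `Scheme.openCoverOfIsOpenCover`, `Scheme.Cover.hom_ext`, `Scheme.Cover.glueMorphisms`,
`Scheme.Cover.ι_glueMorphisms`.  For the compatibility on `pullback (U i).ι (U j).ι`: both projections
factor through `(U i ⊓ U j).toScheme` (`IsOpenImmersion.lift (U i ⊓ U j).ι (pullback.fst _ _ ≫ (U i).ι) _`,
then cancel the monos `(U i).ι`, `(U j).ι`; `Scheme.homOfLE_ι`).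
-/

set_option autoImplicit false

universe v u

open CategoryTheory Limits AlgebraicGeometry Opposite

namespace Fermat.Agent.S25

theorem hom_ext_of_iSup_opens {T Y : Scheme.{u}} {ι : Type u} (U : ι → T.Opens)
    (hU : ⨆ i, U i = ⊤) (f g : T ⟶ Y) (h : ∀ i, (U i).ι ≫ f = (U i).ι ≫ g) : f = g :=
  Scheme.Cover.hom_ext (T.openCoverOfIsOpenCover U hU) f g h

/-- a morphism whose range lies in an open factors through it -/
theorem exists_fac_of_range_subset {T' T : Scheme.{u}} (f : T' ⟶ T) (U : T.Opens)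
    (h : Set.range f.base ⊆ (U : Set T)) : ∃ c : T' ⟶ U.toScheme, c ≫ U.ι = f :=
  ⟨IsOpenImmersion.lift U.ι f (by rw [Scheme.Opens.range_ι]; exact h), IsOpenImmersion.lift_fac _ _ _⟩

theorem exists_glue_hom_of_iSup_opens {T Y : Scheme.{u}} {ι : Type u} (U : ι → T.Opens)
    (hU : ⨆ i, U i = ⊤) (g : ∀ i, (U i).toScheme ⟶ Y)
    (h : ∀ i j, T.homOfLE (inf_le_left : U i ⊓ U j ≤ U i) ≫ g i =
      T.homOfLE (inf_le_right : U i ⊓ U j ≤ U j) ≫ g j) :
    ∃ g₀ : T ⟶ Y, ∀ i, (U i).ι ≫ g₀ = g i := by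
  let 𝒰 := T.openCoverOfIsOpenCover U hU
  have hf : ∀ i j : ι, pullback.fst (𝒰.f i) (𝒰.f j) ≫ g i = pullback.snd _ _ ≫ g j := by
    intro i j
    have hr : Set.range (pullback.fst (U i).ι (U j).ι ≫ (U i).ι).base ⊆
        ((U i ⊓ U j : T.Opens) : Set T) := by
      rintro _ ⟨x, rfl⟩
      refine ⟨?_, ?_⟩
      · rw [Scheme.Hom.comp_base]
        exact ((pullback.fst (U i).ι (U j).ι).base x).2
      · rw [pullback.condition, Scheme.Hom.comp_base]
        exact ((pullback.snd (U i).ι (U j).ι).base x).2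
    obtain ⟨c, hc⟩ := exists_fac_of_range_subset _ _ hr
    have h1 : pullback.fst (U i).ι (U j).ι = c ≫ T.homOfLE (inf_le_left : U i ⊓ U j ≤ U i) := by
      rw [← cancel_mono (U i).ι, Category.assoc, Scheme.homOfLE_ι, hc]
    have h2 : pullback.snd (U i).ι (U j).ι = c ≫ T.homOfLE (inf_le_right : U i ⊓ U j ≤ U j) := by
      rw [← cancel_mono (U j).ι, Category.assoc, Scheme.homOfLE_ι, hc, pullback.condition]
    show pullback.fst (U i).ι (U j).ι ≫ g i = pullback.snd (U i).ι (U j).ι ≫ g j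
    rw [h1, h2, Category.assoc, Category.assoc, h i j]
  exact ⟨𝒰.glueMorphisms g hf, fun i => 𝒰.ι_glueMorphisms g hf i⟩

end Fermat.Agent.S25
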