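import Fermat.Agent.S25.R.Cover

/-!
# S25 / layer R : separation and gluing for a Zariski sheaf along families of open immersions
-/

set_option autoImplicit false

universe u

open CategoryTheory Limits AlgebraicGeometry Opposite

namespace Fermat.Agent.S25.R

variable {S : Scheme.{u}}

section Sheaf

variable {F : (Over S)ᵒᵖ ⥤ Type (u + 1)}

/-- separation along a jointly surjective family of open immersions -/
theorem IsOpenCover.sep (hF : IsZariskiSheaf F) {T : Over S} {ι : Type u} {Y : ι → Over S}
    {f : ∀ i, Y i ⟶ T} (hf : IsOpenCover f) (η η' : F.obj (op T))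
    (h : ∀ i, F.map (f i).op η = F.map (f i).op η') : η = η' := by
  have := hf.isOpenImmersion
  choose e he using fun i => exists_iso_overOpen (f i)
  have hU : ⨆ i, (f i).left.opensRange = ⊤ := by
    rw [eq_top_iff]
    rintro p -
    obtain ⟨i, hi⟩ := hf.cover p
    exact TopologicalSpace.Opens.mem_iSup.2 ⟨i, hi⟩
  refine hF.sep T (fun i => (f i).left.opensRange) hU η η' fun i => ?_
  have h1 : overOpenι T (f i).left.opensRange = (e i).inv ≫ f i :=
    ((Iso.inv_comp_eq _).2 (he i).symm).symm
  rw [h1, map_comp_apply, map_comp_apply, h i]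

/-- gluing along a jointly surjective family of open immersions -/
theorem IsOpenCover.glue (hF : IsZariskiSheaf F) {T : Over S} {ι : Type u} {Y : ι → Over S}
    {f : ∀ i, Y i ⟶ T} (hf : IsOpenCover f) (η : ∀ i, F.obj (op (Y i)))
    (compat : ∀ (i j : ι) (Z : Over S) (a : Z ⟶ Y i) (b : Z ⟶ Y j),
      a ≫ f i = b ≫ f j → F.map a.op (η i) = F.map b.op (η j)) :
    ∃ η₀ : F.obj (op T), ∀ i, F.map (f i).op η₀ = η i := by
  have := hf.isOpenImmersion
  choose e he using fun i => exists_iso_overOpen (f i)
  have hU : ⨆ i, (f i).left.opensRange = ⊤ := by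
    rw [eq_top_iff]
    rintro p -
    obtain ⟨i, hi⟩ := hf.cover p
    exact TopologicalSpace.Opens.mem_iSup.2 ⟨i, hi⟩
  have h1 : ∀ i, (e i).inv ≫ f i = overOpenι T (f i).left.opensRange := by
    intro i
    exact (Iso.inv_comp_eq _).2 (he i).symm
  obtain ⟨η₀, hη₀⟩ := hF.glue T (fun i => (f i).left.opensRange) hU
    (fun i => F.map (e i).inv.op (η i)) (fun i j => by
      rw [← map_comp_apply, ← map_comp_apply]
      apply compat
      rw [Category.assoc, Category.assoc, h1, h1, overOpenLE_ι, overOpenLE_ι])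
  refine ⟨η₀, fun i => ?_⟩
  have h2 : F.map (f i).op η₀ = F.map ((e i).hom ≫ overOpenι T (f i).left.opensRange).op η₀ := by
    rw [he i]
  rw [h2, map_comp_apply, hη₀, ← map_comp_apply, Iso.hom_inv_id, map_id_apply]

end Sheaf

end Fermat.Agent.S25.R
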